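import Fermat.Agent.AV.Jac.Core.Acyclic
import Fermat.Agent.AV.Jac.Core.Trivial

/-!
Coefficient operators on the generating space of an acyclic bundle.
-/

set_option autoImplicit false

universe u

open scoped TensorProduct

namespace FermatLib.AV

namespace ChartData

variable {k : Type u} [Field k] (D : ChartData k)

theorem exists_deg0 (i : Fin D.n) :
    ∃ e : ℕ, ∃ c : D.A1, D.j0 (D.b0 i) = D.j0 D.x ^ e * D.j1 c := by
  obtain ⟨N, c, h⟩ := D.exists_pow_mul1 (D.j0 (D.b0 i))
  refine ⟨N, c, ?_⟩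
  rw [← h, ← mul_assoc, ← mul_pow, D.x_mul_y, one_pow, one_mul]

theorem exists_deg1 (i : Fin D.n) :
    ∃ e : ℕ, ∃ c : D.A0, D.j0 D.x ^ e * D.j1 (D.b1 i) = D.j0 c :=
  D.exists_pow_mul0 _

/-- A bound for the pole order at infinity of a basis element. -/
noncomputable def deg0 (i : Fin D.n) : ℕ := (D.exists_deg0 i).choose

/-- A basis element divided by a power of the coordinate, regular at infinity. -/
noncomputable def cof1 (i : Fin D.n) : D.A1 := (D.exists_deg0 i).choose_spec.choose

theorem j0_b0 (i : Fin D.n) : D.j0 (D.b0 i) = D.j0 D.x ^ D.deg0 i * D.j1 (D.cof1 i) :=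
  (D.exists_deg0 i).choose_spec.choose_spec

/-- A bound for the pole order at zero of a basis element at infinity. -/
noncomputable def deg1 (i : Fin D.n) : ℕ := (D.exists_deg1 i).choose

/-- A basis element at infinity multiplied by a power of the coordinate. -/
noncomputable def cof0 (i : Fin D.n) : D.A0 := (D.exists_deg1 i).choose_spec.choose

theorem j0_cof0 (i : Fin D.n) : D.j0 D.x ^ D.deg1 i * D.j1 (D.b1 i) = D.j0 (D.cof0 i) :=
  (D.exists_deg1 i).choose_spec.choose_spec

variable {D}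
variable {R : Type u} [CommRing R] [Algebra k R]

/-- A basis element of the first chart with coefficients. -/
noncomputable abbrev b0R (i : Fin D.n) : D.R0 R := (1 : R) ⊗ₜ[k] D.b0 i

namespace Bundle

variable {B : D.Bundle R}

/-- Multiplying by a basis element raises the degree in the coordinate by at most `deg0`. -/
theorem yR_pow_smul_b0R_mem {m : B.M} (hm : D.yR R • m ∈ B.L1) (i : Fin D.n) :
    D.yR R ^ (D.deg0 i + 1) • b0R (R := R) i • m ∈ B.L1 := by
  have h : D.yR R ^ D.deg0 i • b0R (R := R) i • m = ((1 : R) ⊗ₜ[k] D.cof1 i : D.R1 R) • m := by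
    rw [← B.smul0, ← B.smul1, ← B.smul1 (_ ⊗ₜ _), smul_smul]
    congr 1
    rw [map_pow, r1_tmul, r0_tmul, r1_tmul, Algebra.TensorProduct.tmul_pow,
      Algebra.TensorProduct.tmul_mul_tmul, one_pow, one_mul, j0_b0, ← mul_assoc, ← mul_pow,
      mul_comm (D.j1 D.y), D.x_mul_y, one_pow, one_mul]
  rw [pow_succ', mul_smul, h, smul_comm]
  exact B.L1.smul_mem _ hm

namespace IsAcyclic

variable (hB : B.IsAcyclic)
include hB

/-- The quotient by the coordinate after removing the constant term. -/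
noncomputable def shiftL0 : B.L0.restrictScalars R →ₗ[R] B.L0.restrictScalars R :=
  (LinearMap.snd R _ _).comp hB.splitEquiv.symm.toLinearMap

/-- The coefficient of a power of the coordinate. -/
noncomputable def coeffW : ℕ → (B.L0.restrictScalars R →ₗ[R] B.W)
  | 0 => hB.projW
  | d + 1 => (coeffW d).comp hB.shiftL0

theorem split_eq (m : B.L0.restrictScalars R) :
    (m : B.M) = (hB.projW m : B.M) + D.xR R • (hB.shiftL0 m : B.M) :=
  (congrArg Subtype.val (hB.splitEquiv.apply_symm_apply m)).symm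

theorem coeffW_zero : hB.coeffW 0 = hB.projW := by rw [coeffW]

theorem coeffW_succ (d : ℕ) : hB.coeffW (d + 1) = (hB.coeffW d).comp hB.shiftL0 := by
  conv_lhs => rw [coeffW]

theorem shiftL0_eq {w : B.W} {a : B.L0.restrictScalars R} {m : B.L0.restrictScalars R}
    (h : (m : B.M) = (w : B.M) + D.xR R • (a : B.M)) : hB.shiftL0 m = a := by
  have : m = hB.splitEquiv (w, a) := Subtype.ext h
  subst this
  simp [shiftL0]

/-- Coefficients are determined by an expansion in powers of the coordinate. -/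
theorem coeffW_sum (f : ℕ → B.W) (N : ℕ) (m : B.L0.restrictScalars R)
    (h : (m : B.M) = ∑ d ∈ Finset.range N, D.xR R ^ d • (f d : B.M)) (d : ℕ) :
    hB.coeffW d m = if d < N then f d else 0 := by
  induction d generalizing f N m with
  | zero =>
    rw [coeffW_zero]
    cases N with
    | zero =>
      rw [Finset.range_zero, Finset.sum_empty] at h
      rw [show m = 0 from Subtype.ext h, map_zero, if_neg (Nat.lt_irrefl 0)]
    | succ N =>
      rw [if_pos (Nat.succ_pos N)]
      refine hB.projW_eq (a := ∑ d ∈ Finset.range N, D.xR R ^ d • (f (d + 1) : B.M))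
        (B.L0.sum_mem fun d _ => B.L0.smul_mem _ (f _).2.1) ?_
      rw [h, Finset.sum_range_succ', Finset.smul_sum, pow_zero, one_smul, add_comm]
      simp only [smul_smul, ← pow_succ']
  | succ d ih =>
    rw [coeffW_succ, LinearMap.comp_apply]
    cases N with
    | zero =>
      rw [Finset.range_zero, Finset.sum_empty] at h
      rw [show m = 0 from Subtype.ext h, map_zero, map_zero, if_neg (Nat.not_lt_zero _)]
    | succ N =>
      let a : B.L0.restrictScalars R := ⟨∑ d ∈ Finset.range N, D.xR R ^ d • (f (d + 1) : B.M),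
        B.L0.sum_mem fun d _ => B.L0.smul_mem _ (f _).2.1⟩
      have ha : hB.shiftL0 m = a := by
        refine hB.shiftL0_eq (w := f 0) ?_
        rw [h, Finset.sum_range_succ', Finset.smul_sum, pow_zero, one_smul, add_comm]
        simp only [smul_smul, ← pow_succ']
      rw [ha, ih (fun d => f (d + 1)) N a rfl]
      simp only [Nat.add_lt_add_iff_right]

/-- Expansion of a section of bounded degree. -/
theorem eq_sum_coeffW (m : B.L0.restrictScalars R) {N : ℕ}
    (hm : D.yR R ^ N • (m : B.M) ∈ B.L1) :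
    (m : B.M) = ∑ d ∈ Finset.range N, D.xR R ^ d • (hB.coeffW d m : B.M) := by
  obtain ⟨f, hf, h⟩ := hB.exists_sum N m.2 hm
  rw [h]
  refine Finset.sum_congr rfl fun d hd => ?_
  rw [hB.coeffW_sum (fun d => ⟨f d, hf d⟩) N m h d, if_pos (Finset.mem_range.1 hd)]

/-- The operator sending a generator to a coefficient of its product with a basis element. -/
noncomputable def opW (p : Fin D.n × ℕ) : B.W →ₗ[R] B.W :=
  (hB.coeffW p.2).comp
    ({ toFun := fun w => ⟨b0R (R := R) p.1 • (w : B.M), B.L0.smul_mem _ w.2.1⟩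
       map_add' := fun a b => Subtype.ext (smul_add (b0R (R := R) p.1) (a : B.M) b)
       map_smul' := fun r a => by
         ext
         simp only [RingHom.id_apply, SetLike.val_smul]
         exact smul_comm (b0R (R := R) p.1) r (a : B.M) } : B.W →ₗ[R] B.L0.restrictScalars R)

theorem opW_apply (p : Fin D.n × ℕ) (w : B.W) :
    hB.opW p w = hB.coeffW p.2 ⟨b0R (R := R) p.1 • (w : B.M), B.L0.smul_mem _ w.2.1⟩ := rfl

theorem b0R_smul_eq (i : Fin D.n) (w : B.W) :
    b0R (R := R) i • (w : B.M) =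
      ∑ d ∈ Finset.range (D.deg0 i + 1), D.xR R ^ d • (hB.opW (i, d) w : B.M) :=
  hB.eq_sum_coeffW ⟨_, B.L0.smul_mem _ w.2.1⟩ (yR_pow_smul_b0R_mem w.2.2 i)

theorem opW_eq_zero {p : Fin D.n × ℕ} (h : D.deg0 p.1 < p.2) (w : B.W) : hB.opW p w = 0 := by
  rw [opW_apply, hB.coeffW_sum (fun d => hB.opW (p.1, d) w) _ _ (hB.b0R_smul_eq p.1 w),
    if_neg (by omega)]

/-- The operator of a word. -/
noncomputable def wordW : List (Fin D.n × ℕ) → (B.W →ₗ[R] B.W)
  | [] => LinearMap.id
  | p :: w => (hB.opW p).comp (wordW w)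

theorem wordW_nil : hB.wordW [] = LinearMap.id := by rw [wordW]

theorem wordW_cons (p : Fin D.n × ℕ) (w : List (Fin D.n × ℕ)) :
    hB.wordW (p :: w) = (hB.opW p).comp (hB.wordW w) := by conv_lhs => rw [wordW]

/-- Coefficient operators commute with semilinear maps respecting the lattices. -/
theorem coeffW_map {S : Type u} [CommRing S] [Algebra k S] {φ : R →ₐ[k] S} {B' : D.Bundle S}
    (hB' : B'.IsAcyclic) (g : B.M →+ B'.M)
    (hg : ∀ (a : D.R01 R) (m : B.M), g (a • m) = D.map01 φ a • g m)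
    (h0 : ∀ m ∈ B.L0, g m ∈ B'.L0) (hW : ∀ m ∈ B.W, g m ∈ B'.W) (d : ℕ)
    (m : B.L0.restrictScalars R) :
    (hB'.coeffW d ⟨g m, h0 _ m.2⟩ : B'.M) = g (hB.coeffW d m : B.M) := by
  obtain ⟨N, hN⟩ := B.exists_mem1 (m : B.M)
  let f : ℕ → B'.W := fun e => ⟨g (hB.coeffW e m : B.M), hW _ (hB.coeffW e m).2⟩
  have key : g (m : B.M) = ∑ e ∈ Finset.range N, D.xR S ^ e • (f e : B'.M) := by
    conv_lhs => rw [hB.eq_sum_coeffW m hN]
    rw [map_sum]
    refine Finset.sum_congr rfl fun e _ => ?_
    rw [← B.smul0, hg, map01_r0, B'.smul0, map_pow, map0_xR]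
  rw [hB'.coeffW_sum f N ⟨g m, h0 _ m.2⟩ key d]
  split_ifs with h
  · rfl
  · have hd := hB.coeffW_sum (fun e => hB.coeffW e m) N m (hB.eq_sum_coeffW m hN) d
    rw [if_neg h] at hd
    rw [hd]
    simp

theorem wordW_map {S : Type u} [CommRing S] [Algebra k S] {φ : R →ₐ[k] S} {B' : D.Bundle S}
    (hB' : B'.IsAcyclic) (g : B.M →+ B'.M)
    (hg : ∀ (a : D.R01 R) (m : B.M), g (a • m) = D.map01 φ a • g m)
    (h0 : ∀ m ∈ B.L0, g m ∈ B'.L0) (hW : ∀ m ∈ B.W, g m ∈ B'.W)
    (w : List (Fin D.n × ℕ)) (v : B.W) :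
    (hB'.wordW w ⟨g v, hW _ v.2⟩ : B'.M) = g (hB.wordW w v : B.M) := by
  induction w with
  | nil => rw [wordW_nil, wordW_nil]; rfl
  | cons p w ih =>
    have hsub : hB'.wordW w ⟨g v, hW _ v.2⟩ = ⟨g (hB.wordW w v : B.M), hW _ (hB.wordW w v).2⟩ :=
      Subtype.ext ih
    rw [wordW_cons, wordW_cons, LinearMap.comp_apply, LinearMap.comp_apply, hsub, opW_apply,
      opW_apply, ← hB.coeffW_map hB' g hg h0 hW]
    congr 2
    ext
    have e : g (b0R (R := R) p.1 • (hB.wordW w v : B.M)) =
        b0R (R := S) p.1 • g (hB.wordW w v : B.M) := by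
      rw [← B.smul0, hg, map01_r0, B'.smul0]
      simp [b0R, ChartData.map0]
    exact e.symm

end IsAcyclic

end Bundle

end ChartData

end FermatLib.AV
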