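import Fermat.Agent.AV.Jac.Chart.Coeff

/-!
Frames: normal forms of framed acyclic bundles, and the algebra classifying them.
-/

set_option autoImplicit false

universe u

open scoped TensorProduct Polynomial

namespace FermatLib.AV

namespace ChartData

variable {k : Type u} [Field k] (D : ChartData k)

/-- The index of the first coordinate. -/
def i₀ : Fin D.n := ⟨0, D.n_pos⟩

/-- Coordinates in the monomial family of the first chart. -/
noncomputable abbrev coord (a : D.A0) : Fin D.n → Polynomial k := D.coeffEquiv0.symm a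

theorem sum_coord (a : D.A0) : ∑ l, Polynomial.aeval D.x (D.coord a l) * D.b0 l = a :=
  D.coeffEquiv0.apply_symm_apply a

/-- Matrices, one for each basis element of the first chart. -/
abbrev FrameMat (R : Type u) [CommRing R] : Type u :=
  Fin D.n → Matrix (Fin D.n) (Fin D.n) R[X]

section Action

variable {D} {R : Type u} [CommRing R] [Algebra k R]

/-- The linear action on the free module defined by matrices. -/
noncomputable def action (T : D.FrameMat R) : D.A0 →ₗ[k] Matrix (Fin D.n) (Fin D.n) R[X] where
  toFun a := ∑ l, (D.coord a l).map (algebraMap k R) • T l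
  map_add' a b := by
    simp [coord, Polynomial.map_add, add_smul, Finset.sum_add_distrib]
  map_smul' r a := by
    simp only [coord, map_smul, Pi.smul_apply, RingHom.id_apply, Finset.smul_sum]
    refine Finset.sum_congr rfl fun l _ => ?_
    rw [Polynomial.smul_eq_C_mul, Polynomial.map_mul, Polynomial.map_C, mul_smul, ← smul_assoc r,
      Algebra.smul_def r ((D.coeffEquiv0.symm a l).map _), Polynomial.algebraMap_apply, mul_smul]

theorem action_apply (T : D.FrameMat R) (a : D.A0) :
    action T a = ∑ l, (D.coord a l).map (algebraMap k R) • T l := rfl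

/-- The matrix of a word. -/
noncomputable def wordMat (T : D.FrameMat R) : List (Fin D.n × ℕ) → Matrix (Fin D.n) (Fin D.n) R
  | [] => 1
  | p :: w => (T p.1).map (Polynomial.coeff · p.2) * wordMat T w

theorem wordMat_nil (T : D.FrameMat R) : wordMat T [] = 1 := by rw [wordMat]

theorem wordMat_cons (T : D.FrameMat R) (p : Fin D.n × ℕ) (w : List (Fin D.n × ℕ)) :
    wordMat T (p :: w) = (T p.1).map (Polynomial.coeff · p.2) * wordMat T w := by
  conv_lhs => rw [wordMat]

/-- The normal form conditions of a chart. -/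
structure IsFrame (w : Fin D.n → List (Fin D.n × ℕ)) (T : D.FrameMat R) : Prop where
  bound : ∀ i r c e, D.deg0 i < e → (T i r c).coeff e = 0
  one : action T 1 = 1
  mul : ∀ i j, action T (D.b0 i * D.b0 j) = T i * T j
  bound1 : ∀ i r c e, D.deg1 i < e → (action T (D.cof0 i) r c).coeff e = 0
  eps : ∀ i c, (T i D.i₀ c).coeff 0 = if c = D.i₀ then algebraMap k R (D.ε0 (D.b0 i)) else 0
  word : ∀ j c, wordMat T (w j) D.i₀ c = if c = j then 1 else 0

end Action

/-- Normal forms of framed bundles with coefficients in an algebra. -/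
def Frame (w : Fin D.n → List (Fin D.n × ℕ)) (R : Type u) [CommRing R] [Algebra k R] : Type u :=
  {T : D.FrameMat R // IsFrame w T}

variable {D}
variable {R S : Type u} [CommRing R] [Algebra k R] [CommRing S] [Algebra k S] (φ : R →ₐ[k] S)

/-- Change of coefficients of matrices. -/
noncomputable def mapMat (T : D.FrameMat R) : D.FrameMat S :=
  fun i => (T i).map (Polynomial.mapRingHom φ.toRingHom)

theorem mapMat_apply_coeff (T : D.FrameMat R) (i r c : Fin D.n) (e : ℕ) :
    (mapMat φ T i r c).coeff e = φ ((T i r c).coeff e) := by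
  simp [mapMat, Polynomial.coeff_map]

theorem action_mapMat (T : D.FrameMat R) (a : D.A0) :
    action (mapMat φ T) a = (action T a).map (Polynomial.mapRingHom φ.toRingHom) := by
  ext r c : 1
  rw [action_apply, action_apply, Matrix.map_apply, Matrix.sum_apply, Matrix.sum_apply, map_sum]
  refine Finset.sum_congr rfl fun l _ => ?_
  simp only [Matrix.smul_apply, smul_eq_mul, mapMat, Matrix.map_apply, Polynomial.coe_mapRingHom,
    Polynomial.map_mul, Polynomial.map_map]
  congr 2
  exact φ.comp_algebraMap.symm

theorem wordMat_mapMat (T : D.FrameMat R) (w : List (Fin D.n × ℕ)) :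
    wordMat (mapMat φ T) w = (wordMat T w).map φ := by
  induction w with
  | nil => rw [wordMat_nil, wordMat_nil, Matrix.map_one φ (map_zero φ) (map_one φ)]
  | cons p w ih =>
    rw [wordMat_cons, wordMat_cons, Matrix.map_mul, ih]
    congr 1
    ext r c
    simp [mapMat_apply_coeff]

theorem IsFrame.mapMat {w : Fin D.n → List (Fin D.n × ℕ)} {T : D.FrameMat R} (h : IsFrame w T) :
    IsFrame w (mapMat φ T) where
  bound i r c e he := by rw [mapMat_apply_coeff, h.bound i r c e he, map_zero]
  one := by
    rw [action_mapMat, h.one, Matrix.map_one _ (map_zero _) (map_one _)]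
  mul i j := by
    rw [action_mapMat, h.mul, Matrix.map_mul]
    rfl
  bound1 i r c e he := by
    rw [action_mapMat, Matrix.map_apply, Polynomial.coe_mapRingHom, Polynomial.coeff_map,
      h.bound1 i r c e he, map_zero]
  eps i c := by
    rw [mapMat_apply_coeff, h.eps]
    split_ifs
    · exact φ.commutes _
    · exact map_zero φ
  word j c := by
    rw [wordMat_mapMat, Matrix.map_apply, h.word]
    split_ifs
    · exact map_one φ
    · exact map_zero φ

/-- Change of coefficients of frames. -/
noncomputable def Frame.map {w : Fin D.n → List (Fin D.n × ℕ)} (T : D.Frame w R) : D.Frame w S :=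
  ⟨mapMat φ T.1, T.2.mapMat φ⟩

section Universal

variable (D) (w : Fin D.n → List (Fin D.n × ℕ))

/-- The variables: matrix coefficients of bounded degree. -/
abbrev FrameVar : Type := Σ i : Fin D.n, Fin D.n × Fin D.n × Fin (D.deg0 i + 1)

/-- The generic matrices. -/
noncomputable def genMat : D.FrameMat (MvPolynomial D.FrameVar k) := fun i r c =>
  ∑ e : Fin (D.deg0 i + 1), Polynomial.monomial (e : ℕ) (MvPolynomial.X ⟨i, r, c, e⟩)

theorem genMat_coeff (i r c : Fin D.n) (e : ℕ) :
    (D.genMat i r c).coeff e =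
      if h : e < D.deg0 i + 1 then MvPolynomial.X ⟨i, r, c, ⟨e, h⟩⟩ else 0 := by
  simp only [genMat, Polynomial.finsetSum_coeff, Polynomial.coeff_monomial]
  split_ifs with h
  · rw [Finset.sum_eq_single ⟨e, h⟩ (fun b _ hb => if_neg fun h' => hb (Fin.ext h')) (by simp),
      if_pos rfl]
  · exact Finset.sum_eq_zero fun b _ => if_neg fun (h' : (b : ℕ) = e) => h (h' ▸ b.2)

/-- The equations of the chart. -/
noncomputable def frameEqns : Set (MvPolynomial D.FrameVar k) :=
  {z | ∃ r c e, z = (action D.genMat 1 r c).coeff e -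
      ((1 : Matrix (Fin D.n) (Fin D.n) (MvPolynomial D.FrameVar k)[X]) r c).coeff e} ∪
  {z | ∃ i j r c e, z = (action D.genMat (D.b0 i * D.b0 j) r c).coeff e -
      ((D.genMat i * D.genMat j) r c).coeff e} ∪
  {z | ∃ i r c e, D.deg1 i < e ∧ z = (action D.genMat (D.cof0 i) r c).coeff e} ∪
  {z | ∃ i c, z = (D.genMat i D.i₀ c).coeff 0 -
      if c = D.i₀ then algebraMap k _ (D.ε0 (D.b0 i)) else 0} ∪
  {z | ∃ j c, z = wordMat D.genMat (w j) D.i₀ c - if c = j then 1 else 0}

/-- The ideal of the chart. -/
noncomputable def frameIdeal : Ideal (MvPolynomial D.FrameVar k) := Ideal.span (D.frameEqns w)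

/-- The coordinate ring of the chart. -/
abbrev FrameRing : Type u := MvPolynomial D.FrameVar k ⧸ D.frameIdeal w

theorem finiteType_frameRing : Algebra.FiniteType k (D.FrameRing w) :=
  Algebra.FiniteType.of_surjective (Ideal.Quotient.mkₐ k (D.frameIdeal w))
    Ideal.Quotient.mk_surjective

variable {D w}

theorem isFrame_mapMat_genMat_iff (f : MvPolynomial D.FrameVar k →ₐ[k] R) :
    IsFrame w (mapMat f D.genMat) ↔ ∀ z ∈ D.frameEqns w, f z = 0 := by
  have ha : ∀ a r c e, (action (mapMat f D.genMat) a r c).coeff e =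
      f ((action D.genMat a r c).coeff e) := fun a r c e => by
    rw [action_mapMat, Matrix.map_apply, Polynomial.coe_mapRingHom, Polynomial.coeff_map]
    rfl
  have h1 : ∀ r c e, f (((1 : Matrix (Fin D.n) (Fin D.n) (MvPolynomial D.FrameVar k)[X]) r c).coeff e) =
      ((1 : Matrix (Fin D.n) (Fin D.n) R[X]) r c).coeff e := fun r c e => by
    simp only [Matrix.one_apply]
    split_ifs <;> simp [Polynomial.coeff_one, apply_ite f]
  have hm : ∀ i j r c e, f (((D.genMat i * D.genMat j) r c).coeff e) =
      ((mapMat f D.genMat i * mapMat f D.genMat j) r c).coeff e := fun i j r c e => by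
    rw [show mapMat f D.genMat i * mapMat f D.genMat j =
        (D.genMat i * D.genMat j).map (Polynomial.mapRingHom f.toRingHom) from Matrix.map_mul.symm,
      Matrix.map_apply, Polynomial.coe_mapRingHom, Polynomial.coeff_map]
    rfl
  constructor
  · intro h z hz
    simp only [frameEqns, Set.mem_union, Set.mem_ofPred_eq] at hz
    rcases hz with (((⟨r, c, e, rfl⟩ | ⟨i, j, r, c, e, rfl⟩) | ⟨i, r, c, e, he, rfl⟩) |
      ⟨i, c, rfl⟩) | ⟨j, c, rfl⟩
    · rw [map_sub, ← ha, h1, h.one, sub_self]
    · rw [map_sub, ← ha, hm, h.mul, sub_self]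
    · rw [← ha, h.bound1 i r c e he]
    · rw [map_sub, ← mapMat_apply_coeff, h.eps, apply_ite f, AlgHom.commutes, map_zero, sub_self]
    · have := h.word j c
      rw [wordMat_mapMat, Matrix.map_apply] at this
      rw [map_sub, this, apply_ite f, map_one, map_zero, sub_self]
  · intro h
    have h' : ∀ z z' : MvPolynomial D.FrameVar k, z - z' ∈ D.frameEqns w → f z = f z' :=
      fun z z' hz => sub_eq_zero.1 (by rw [← map_sub]; exact h _ hz)
    refine ⟨fun i r c e he => ?_, ?_, fun i j => ?_, fun i r c e he => ?_, fun i c => ?_,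
      fun j c => ?_⟩
    · rw [mapMat_apply_coeff, genMat_coeff, dif_neg (by omega), map_zero]
    · ext r c e : 3
      rw [ha, h' _ _ (Or.inl (Or.inl (Or.inl (Or.inl ⟨r, c, e, rfl⟩)))), h1]
    · ext r c e : 3
      rw [ha, h' _ _ (Or.inl (Or.inl (Or.inl (Or.inr ⟨i, j, r, c, e, rfl⟩)))), hm]
    · rw [ha]
      exact h _ (Or.inl (Or.inl (Or.inr ⟨i, r, c, e, he, rfl⟩)))
    · rw [mapMat_apply_coeff, h' _ _ (Or.inl (Or.inr ⟨i, c, rfl⟩)), apply_ite f, AlgHom.commutes,
        map_zero]
    · rw [wordMat_mapMat, Matrix.map_apply, h' _ _ (Or.inr ⟨j, c, rfl⟩), apply_ite f, map_one,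
        map_zero]

variable (D w)

/-- The universal frame. -/
noncomputable def univFrame : D.Frame w (D.FrameRing w) :=
  ⟨mapMat (Ideal.Quotient.mkₐ k (D.frameIdeal w)) D.genMat,
    (isFrame_mapMat_genMat_iff _).2 fun z hz =>
      Ideal.Quotient.eq_zero_iff_mem.2 (Ideal.subset_span hz)⟩

variable {D w}

/-- Frames are classified by the chart ring. -/
theorem frame_existsUnique (T : D.Frame w R) :
    ∃! f : D.FrameRing w →ₐ[k] R, (D.univFrame w).map f = T := by
  let g : MvPolynomial D.FrameVar k →ₐ[k] R :=
    MvPolynomial.aeval fun v => (T.1 v.1 v.2.1 v.2.2.1).coeff v.2.2.2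
  have hg : mapMat g D.genMat = T.1 := by
    ext i r c e
    rw [mapMat_apply_coeff, genMat_coeff]
    split_ifs with h
    · simp [g]
    · rw [map_zero, T.2.bound i r c e (by omega)]
  have hker : ∀ z ∈ D.frameIdeal w, g z = 0 := fun z hz => by
    have : Ideal.span (D.frameEqns w) ≤ RingHom.ker g.toRingHom :=
      Ideal.span_le.2 ((isFrame_mapMat_genMat_iff g).1 (hg ▸ T.2))
    exact this hz
  refine ⟨Ideal.Quotient.liftₐ _ g hker, Subtype.ext (funext fun i => ?_), fun f hf => ?_⟩
  · rw [← hg]
    ext r c e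
    simp [Frame.map, univFrame, mapMat]
  · refine Ideal.Quotient.algHom_ext k (MvPolynomial.algHom_ext fun v => ?_)
    obtain ⟨i, r, c, e⟩ := v
    have h := congrArg (fun T : D.Frame w R => (T.1 i r c).coeff e) hf
    simp only [Frame.map, univFrame] at h
    rw [mapMat_apply_coeff, mapMat_apply_coeff, genMat_coeff, dif_pos e.2] at h
    simp only [AlgHom.comp_apply, Ideal.Quotient.mkₐ_eq_mk, Ideal.Quotient.liftₐ_apply,
      Ideal.Quotient.lift_mk]
    refine h.trans ?_
    simp [g]

end Universal

end ChartData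

end FermatLib.AV
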