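import Fermat.Agent.AV.Jac.Chart.Frame

/-!
Functionals at the marked point and framed bundles.
-/

set_option autoImplicit false

universe u

open scoped TensorProduct

namespace FermatLib.AV

namespace ChartData

variable {k : Type u} [Field k] {D : ChartData k} {R : Type u} [CommRing R] [Algebra k R]

namespace Bundle

/-- A functional on the first lattice inducing a trivialisation of the fibre at the marked
point. -/
structure EpsFunctional (B : D.Bundle R) : Type u where
  toLinearMap : B.L0.restrictScalars R →ₗ[R] R
  map_smul0 : ∀ (a : D.R0 R) (m : B.L0.restrictScalars R),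
    toLinearMap ⟨a • (m : B.M), B.L0.smul_mem a m.2⟩ = D.εR R a * toLinearMap m
  surjective : Function.Surjective toLinearMap

/-- The covectors attached to a family of words. -/
noncomputable def wordCoord {B : D.Bundle R} (hB : B.IsAcyclic) (f : B.EpsFunctional)
    (w : Fin D.n → List (Fin D.n × ℕ)) : B.W →ₗ[R] (Fin D.n → R) :=
  LinearMap.pi fun j => f.toLinearMap.comp
    ((Submodule.inclusion (fun _ h => h.1 : B.W ≤ B.L0.restrictScalars R)).comp (hB.wordW (w j)))

/-- An acyclic rigidifiable bundle on which the covectors of the words form a basis. -/
def IsFramed (w : Fin D.n → List (Fin D.n × ℕ)) (B : D.Bundle R) : Prop :=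
  ∃ (hB : B.IsAcyclic) (f : B.EpsFunctional), Function.Bijective (wordCoord hB f w)

end Bundle

end ChartData

end FermatLib.AV
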