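import Fermat.Agent.AV.Jac.Chart.FrameModule
import Fermat.Agent.AV.Jac.Chart.Functional
import Fermat.Agent.AV.Jac.Core.FreeInvertible

/-!
The line bundle of a frame.
-/

set_option autoImplicit false

universe u

open scoped TensorProduct Polynomial

namespace FermatLib.AV

namespace ChartData

variable {k : Type u} [Field k] {D : ChartData k} {R : Type u} [CommRing R] [Algebra k R]
  {w : Fin D.n → List (Fin D.n × ℕ)} (T : D.Frame w R)

namespace Frame

/-- A constant vector. -/
noncomputable def constVec (c : Fin D.n → R) : T.Vec := T.vec fun j => Polynomial.C (c j)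

/-- A basis vector. -/
noncomputable def basisVec (j : Fin D.n) : T.Vec := T.vec (Pi.single j 1)

theorem coords_constVec (c : Fin D.n → R) (j : Fin D.n) :
    T.coords (T.constVec c) j = Polynomial.C (c j) := rfl

theorem coords_sum {ι : Type} (s : Finset ι) (f : ι → T.Vec) :
    T.coords (∑ i ∈ s, f i) = ∑ i ∈ s, T.coords (f i) := rfl

theorem coords_injective : Function.Injective T.coords := fun _ _ h => h

theorem sum_basisVec (p : Fin D.n → R[X]) :
    ∑ j, Polynomial.aeval (D.xR R) (p j) • T.basisVec j = T.vec p := by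
  refine T.coords_injective ?_
  rw [coords_sum]
  funext i
  simp only [Finset.sum_apply, aeval_xR_smul, coords_smul_poly, Pi.smul_apply, smul_eq_mul]
  rw [Finset.sum_eq_single i (fun b _ hb => by simp [coords, basisVec, vec, Ne.symm hb]) (by simp)]
  simp [coords, basisVec, vec]

theorem invertible_range_incl : Module.Invertible (D.R0 R) (LinearMap.range T.incl) := by
  have : Module.Invertible (D.R0 R) T.Vec := by
    refine D.invertible0_of_basis T.basisVec ?_
    have h : (fun p : Fin D.n → R[X] => ∑ j, Polynomial.aeval (D.xR R) (p j) • T.basisVec j) =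
        T.vec := funext T.sum_basisVec
    rw [h]
    exact ⟨fun _ _ h => h, fun v => ⟨v, rfl⟩⟩
  exact Module.Invertible.congr (LinearEquiv.ofInjective T.incl T.incl_injective)

/-- All coordinates have degree less than `N`. -/
def DegLT (v : T.Vec) (N : ℕ) : Prop := ∀ j e, N ≤ e → (T.coords v j).coeff e = 0

theorem exists_degLT (v : T.Vec) : ∃ N, T.DegLT v N := by
  refine ⟨Finset.univ.sup (fun j => (T.coords v j).natDegree) + 1, fun j e he => ?_⟩
  exact Polynomial.coeff_eq_zero_of_natDegree_lt
    ((Finset.le_sup (f := fun j => (T.coords v j).natDegree) (Finset.mem_univ j)).trans_lt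
      (Nat.lt_of_succ_le he))

theorem eq_sum_constVec (v : T.Vec) {N : ℕ} (h : T.DegLT v N) :
    v = ∑ d ∈ Finset.range N, D.xR R ^ d • T.constVec fun j => (T.coords v j).coeff d := by
  refine T.coords_injective ?_
  rw [coords_sum]
  funext j
  ext e
  simp only [Finset.sum_apply, xR_pow_smul, coords_smul_poly, Pi.smul_apply, smul_eq_mul,
    coords_constVec, Polynomial.finsetSum_coeff, mul_comm (Polynomial.X ^ _),
    Polynomial.coeff_C_mul_X_pow]
  rw [Finset.sum_ite_eq (Finset.range N) e (fun d => (T.coords v j).coeff d)]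
  split_ifs with he
  · rfl
  · exact h j e (not_lt.1 fun h' => he (Finset.mem_range.2 h'))

theorem constVec_eq_sum (c : Fin D.n → R) :
    T.constVec c = ∑ j, algebraMap R (D.R0 R) (c j) • T.basisVec j := by
  rw [show T.constVec c = T.vec (fun j => Polynomial.C (c j)) from rfl, ← sum_basisVec]
  simp [Polynomial.aeval_C]

theorem yR_pow_smul_xR_pow (M d : ℕ) (h : d ≤ M) (z : T.Sect) :
    D.yR R ^ M • D.xR R ^ d • z = D.yR R ^ (M - d) • z := by
  change D.r1 R (D.yR R ^ M) • D.r0 R (D.xR R ^ d) • z = D.r1 R (D.yR R ^ (M - d)) • z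
  obtain ⟨t, rfl⟩ := Nat.exists_eq_add_of_le h
  rw [smul_smul, map_pow, map_pow, map_pow, Nat.add_sub_cancel_left, pow_add, mul_right_comm,
    ← mul_pow, mul_comm (D.r1 R (D.yR R)), D.r0_x_mul_r1_y, one_pow, one_mul]

theorem xR_pow_yR_pow (N : ℕ) (z : T.Sect) : D.xR R ^ N • D.yR R ^ N • z = z := by
  change D.r0 R (D.xR R ^ N) • D.r1 R (D.yR R ^ N) • z = z
  rw [smul_smul, map_pow, map_pow, ← mul_pow, D.r0_x_mul_r1_y, one_pow, one_smul]

theorem yR_pow_xR_pow (N : ℕ) (z : T.Sect) : D.yR R ^ N • D.xR R ^ N • z = z := by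
  rw [T.yR_pow_smul_xR_pow N N le_rfl, Nat.sub_self, pow_zero, one_smul]

/-- The free module on negative powers of the coordinate. -/
def negPart : Submodule R T.Sect where
  carrier := {z | ∃ (N : ℕ) (v : T.Vec), T.DegLT v N ∧ z = D.yR R ^ N • T.incl v}
  zero_mem' := ⟨0, 0, fun _ e _ => Polynomial.coeff_zero e, by simp⟩
  add_mem' := by
    rintro _ _ ⟨N, v, hv, rfl⟩ ⟨N', v', hv', rfl⟩
    refine ⟨N + N', D.xR R ^ N' • v + D.xR R ^ N • v', fun j e he => ?_, ?_⟩
    · change (T.coords (D.xR R ^ N' • v) j + T.coords (D.xR R ^ N • v') j).coeff e = 0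
      rw [xR_pow_smul, xR_pow_smul, coords_smul_poly, coords_smul_poly, Polynomial.coeff_add,
        Pi.smul_apply, Pi.smul_apply, smul_eq_mul, smul_eq_mul, Polynomial.coeff_X_pow_mul',
        Polynomial.coeff_X_pow_mul', if_pos (by omega), if_pos (by omega), hv j _ (by omega),
        hv' j _ (by omega), add_zero]
    · rw [map_add, LinearMap.map_smul, LinearMap.map_smul, smul_add,
        T.yR_pow_smul_xR_pow _ _ (by omega), T.yR_pow_smul_xR_pow _ _ (by omega),
        Nat.add_sub_cancel, Nat.add_sub_cancel_left]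
  smul_mem' := by
    rintro r _ ⟨N, v, hv, rfl⟩
    refine ⟨N, algebraMap R (D.R0 R) r • v, fun j e he => ?_, ?_⟩
    · rw [algebraMap_smul_vec, coords_smul_poly, Pi.smul_apply, smul_eq_mul,
        Polynomial.coeff_C_mul, hv j e he, mul_zero]
    · rw [LinearMap.map_smul, IsScalarTower.algebraMap_smul, smul_comm]

theorem mem_negPart_of_degLT {v : T.Vec} {N M : ℕ} (hv : T.DegLT v N) (h : N ≤ M) :
    D.yR R ^ M • T.incl v ∈ T.negPart :=
  ⟨M, v, fun j e he => hv j e (h.trans he), rfl⟩

/-- The generators of the second lattice. -/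
noncomputable def gen1 (j : Fin D.n) : T.Sect := D.yR R • T.incl (T.basisVec j)

theorem gen1_mem (j : Fin D.n) : T.gen1 j ∈ T.negPart := by
  have h : T.DegLT (T.basisVec j) 1 := fun i e he => by
    simp only [coords, basisVec, vec, Pi.single_apply]
    split_ifs <;> simp [Polynomial.coeff_one, show e ≠ 0 by omega]
  simpa [gen1] using T.mem_negPart_of_degLT h le_rfl

theorem degLT_constVec (c : Fin D.n → R) : T.DegLT (T.constVec c) 1 := fun j e he => by
  rw [coords_constVec, Polynomial.coeff_C, if_neg (by omega)]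

theorem smul_b1_mem (i : Fin D.n) {z : T.Sect} (hz : z ∈ T.negPart) :
    ((1 : R) ⊗ₜ[k] D.b1 i : D.R1 R) • z ∈ T.negPart := by
  obtain ⟨N, v, hv, rfl⟩ := hz
  have hkey : ((1 : R) ⊗ₜ[k] D.b1 i : D.R1 R) • D.yR R ^ N • T.incl v =
      D.yR R ^ (D.deg1 i + N) • T.incl (((1 : R) ⊗ₜ[k] D.cof0 i : D.R0 R) • v) := by
    rw [LinearMap.map_smul]
    change D.r1 R (_ ⊗ₜ _) • D.r1 R (D.yR R ^ N) • T.incl v =
      D.r1 R (D.yR R ^ (D.deg1 i + N)) • D.r0 R (_ ⊗ₜ _) • T.incl v
    rw [smul_smul, smul_smul]
    congr 1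
    simp only [map_pow, r1_tmul, r0_tmul, ← D.j0_cof0 i, Algebra.TensorProduct.tmul_pow,
      Algebra.TensorProduct.tmul_mul_tmul, one_pow, one_mul]
    congr 1
    calc D.j1 (D.b1 i) * D.j1 D.y ^ N
        = (D.j0 D.x * D.j1 D.y) ^ D.deg1 i * (D.j1 (D.b1 i) * D.j1 D.y ^ N) := by
          rw [D.x_mul_y, one_pow, one_mul]
      _ = _ := by rw [mul_pow, pow_add]; ring
  rw [hkey]
  refine T.mem_negPart_of_degLT (N := D.deg1 i + N) (fun r e he => ?_) le_rfl
  rw [coords_smul, actR_tmul, one_smul, Matrix.mulVec]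
  simp only [dotProduct, Polynomial.finsetSum_coeff]
  refine Finset.sum_eq_zero fun c _ => ?_
  rw [Polynomial.coeff_mul]
  refine Finset.sum_eq_zero fun p hp => ?_
  rw [Finset.HasAntidiagonal.mem_antidiagonal] at hp
  by_cases h : D.deg1 i < p.1
  · rw [T.2.bound1 i r c p.1 h, zero_mul]
  · rw [hv c p.2 (by omega), mul_zero]

theorem yR_pow_mem (e : ℕ) {z : T.Sect} (hz : z ∈ T.negPart) :
    D.yR R ^ e • z ∈ T.negPart := by
  obtain ⟨N, v, hv, rfl⟩ := hz
  rw [← mul_smul, ← pow_add]
  exact T.mem_negPart_of_degLT hv (by omega)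

theorem smul_mem_negPart (a : D.R1 R) {z : T.Sect} (hz : z ∈ T.negPart) :
    a • z ∈ T.negPart := by
  refine Submodule.span_induction (R := R) ?_ ?_ ?_ ?_
    ((D.rBasis1 R).span_eq ▸ Submodule.mem_top : a ∈ Submodule.span R (Set.range (D.rBasis1 R)))
  · rintro _ ⟨p, rfl⟩
    rw [rBasis1_apply, mul_smul]
    exact T.yR_pow_mem _ (T.smul_b1_mem _ hz)
  · rw [zero_smul]; exact Submodule.zero_mem _
  · intro a b _ _ ha hb; rw [add_smul]; exact Submodule.add_mem _ ha hb
  · intro r a _ ha; rw [smul_assoc]; exact Submodule.smul_mem _ _ ha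

/-- The second lattice. -/
noncomputable def lattice1 : Submodule (D.R1 R) T.Sect :=
  Submodule.span (D.R1 R) (Set.range T.gen1)

theorem lattice1_eq : T.lattice1.restrictScalars R = T.negPart := by
  refine le_antisymm (fun z hz => ?_) ?_
  · refine Submodule.span_induction ?_ (Submodule.zero_mem _)
      (fun a b _ _ ha hb => Submodule.add_mem _ ha hb)
      (fun a z _ h => T.smul_mem_negPart a h) hz
    rintro _ ⟨j, rfl⟩
    exact T.gen1_mem j
  · rintro _ ⟨N, v, hv, rfl⟩
    rw [T.eq_sum_constVec v hv, map_sum, Finset.smul_sum]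
    refine Submodule.sum_mem _ fun d hd => ?_
    obtain ⟨t, rfl⟩ := Nat.exists_eq_add_of_lt (Finset.mem_range.1 hd)
    rw [LinearMap.map_smul, T.yR_pow_smul_xR_pow _ _ (by omega), constVec_eq_sum, map_sum,
      Finset.smul_sum]
    refine Submodule.sum_mem _ fun j _ => ?_
    rw [show d + t + 1 - d = t + 1 by omega, LinearMap.map_smul, IsScalarTower.algebraMap_smul,
      smul_comm, pow_succ, mul_smul]
    exact Submodule.smul_mem _ _ (T.lattice1.smul_mem _ (Submodule.subset_span ⟨j, rfl⟩))

theorem sum_gen1 (p : Fin D.n → R[X]) {N : ℕ} (hN : ∀ j, (p j).natDegree < N) :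
    ∑ j, Polynomial.aeval (D.yR R) (p j) • T.gen1 j = D.yR R ^ N •
      T.incl (T.vec fun j => ∑ d ∈ Finset.range N,
        Polynomial.C ((p j).coeff d) * Polynomial.X ^ (N - 1 - d)) := by
  have hv : T.vec (fun j => ∑ d ∈ Finset.range N,
        Polynomial.C ((p j).coeff d) * Polynomial.X ^ (N - 1 - d)) =
      ∑ d ∈ Finset.range N, D.xR R ^ (N - 1 - d) • T.constVec fun j => (p j).coeff d := by
    refine T.coords_injective ?_
    rw [coords_sum]
    funext j
    simp only [Finset.sum_apply, xR_pow_smul, coords_smul_poly, Pi.smul_apply, smul_eq_mul,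
      coords_constVec, mul_comm (Polynomial.X ^ _)]
    rfl
  rw [hv, map_sum, Finset.smul_sum]
  have h1 : ∀ d ∈ Finset.range N,
      D.yR R ^ N • T.incl (D.xR R ^ (N - 1 - d) • T.constVec fun j => (p j).coeff d) =
        ∑ j, (p j).coeff d • D.yR R ^ d • T.gen1 j := fun d hd => by
    have hd' := Finset.mem_range.1 hd
    rw [LinearMap.map_smul, T.yR_pow_smul_xR_pow _ _ (by omega), constVec_eq_sum, map_sum,
      Finset.smul_sum]
    refine Finset.sum_congr rfl fun j _ => ?_
    rw [LinearMap.map_smul, IsScalarTower.algebraMap_smul, gen1, smul_comm, smul_smul (_ ^ d),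
      ← pow_succ, show N - (N - 1 - d) = d + 1 by omega]
  rw [Finset.sum_congr rfl h1, Finset.sum_comm]
  refine Finset.sum_congr rfl fun j _ => ?_
  rw [Polynomial.aeval_eq_sum_range' (hN j), Finset.sum_smul]
  exact Finset.sum_congr rfl fun d _ => smul_assoc _ _ _

theorem gen1_bijective : Function.Injective
    fun p : Fin D.n → R[X] => ∑ j, Polynomial.aeval (D.yR R) (p j) • T.gen1 j := by
  intro p q h
  let N := Finset.univ.sup (fun j => max (p j).natDegree (q j).natDegree) + 1
  have hN : ∀ j, (p j).natDegree < N ∧ (q j).natDegree < N := fun j => by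
    have h' := Finset.le_sup (f := fun j => max (p j).natDegree (q j).natDegree) (Finset.mem_univ j)
    constructor <;> omega
  change ∑ j, _ = ∑ j, _ at h
  rw [T.sum_gen1 p (fun j => (hN j).1), T.sum_gen1 q (fun j => (hN j).2)] at h
  have h' := congrArg (D.xR R ^ N • ·) h
  simp only [xR_pow_yR_pow] at h'
  have hc := T.incl_injective h'
  funext j
  ext d
  by_cases hd : d < N
  · have := congrArg (fun f : R[X] => f.coeff (N - 1 - d)) (congr_fun hc j)
    simp only [vec, Polynomial.finsetSum_coeff, Polynomial.coeff_C_mul_X_pow] at this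
    rw [Finset.sum_eq_single d (fun b hb hbd => if_neg (by have := Finset.mem_range.1 hb; omega))
        (fun h => absurd (Finset.mem_range.2 hd) h), if_pos rfl,
      Finset.sum_eq_single d (fun b hb hbd => if_neg (by have := Finset.mem_range.1 hb; omega))
        (fun h => absurd (Finset.mem_range.2 hd) h), if_pos rfl] at this
    exact this
  · rw [Polynomial.coeff_eq_zero_of_natDegree_lt (lt_of_lt_of_le (hN j).1 (not_lt.1 hd)),
      Polynomial.coeff_eq_zero_of_natDegree_lt (lt_of_lt_of_le (hN j).2 (not_lt.1 hd))]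

theorem invertible_lattice1 : Module.Invertible (D.R1 R) T.lattice1 := by
  refine D.invertible1_of_basis (fun j => ⟨T.gen1 j, Submodule.subset_span ⟨j, rfl⟩⟩) ⟨?_, ?_⟩
  · intro p q h
    refine T.gen1_bijective ?_
    change ∑ j, _ = ∑ j, _ at h
    have h' := congrArg (Submodule.subtype _) h
    rw [map_sum, map_sum] at h'
    exact h'
  · rintro ⟨z, hz⟩
    obtain ⟨N, v, hv, rfl⟩ : z ∈ T.negPart := T.lattice1_eq ▸ hz
    let p : Fin D.n → R[X] := fun j => ∑ d ∈ Finset.range N,
      Polynomial.monomial d ((T.coords v j).coeff (N - 1 - d))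
    refine ⟨p, Subtype.ext ?_⟩
    simp only [Submodule.coe_sum, Submodule.coe_smul]
    rcases Nat.eq_zero_or_pos N with rfl | hNpos
    · have : v = 0 := T.coords_injective (funext fun j => Polynomial.ext fun e =>
        (hv j e (Nat.zero_le e)).trans (Polynomial.coeff_zero e).symm)
      simp [p, this]
    have hN : ∀ j, (p j).natDegree < N := fun j => by
      refine Nat.lt_of_le_of_lt (Polynomial.natDegree_le_iff_coeff_eq_zero.2 fun e he => ?_)
        (show N - 1 < N by omega)
      rw [Polynomial.finsetSum_coeff]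
      exact Finset.sum_eq_zero fun d hd => by
        rw [Polynomial.coeff_monomial, if_neg (by have := Finset.mem_range.1 hd; omega)]
    rw [T.sum_gen1 p hN]
    congr 2
    refine T.coords_injective (funext fun j => ?_)
    ext e
    change (∑ d ∈ Finset.range N, (_ : R[X])).coeff e = _
    simp only [Polynomial.finsetSum_coeff, Polynomial.coeff_C_mul_X_pow]
    by_cases he : e < N
    · rw [Finset.sum_eq_single (N - 1 - e)
          (fun b hb hbd => if_neg (by have := Finset.mem_range.1 hb; omega))
          (fun h => absurd (Finset.mem_range.2 (by omega)) h), if_pos (by omega)]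
      simp only [p, Polynomial.finsetSum_coeff]
      rw [Finset.sum_eq_single (N - 1 - e)
          (fun b _ hbd => by rw [Polynomial.coeff_monomial, if_neg hbd])
          (fun h => absurd (Finset.mem_range.2 (by omega)) h)]
      rw [Polynomial.coeff_monomial, if_pos rfl, show N - 1 - (N - 1 - e) = e by omega]
    · rw [hv j e (not_lt.1 he)]
      exact Finset.sum_eq_zero fun b hb => if_neg (by have := Finset.mem_range.1 hb; omega)

/-- The bundle of a frame. -/
@[reducible] noncomputable def bundle : D.Bundle R where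
  M := T.Sect
  smul0 _ _ := rfl
  smul1 _ _ := rfl
  L0 := LinearMap.range T.incl
  L1 := T.lattice1
  invertible0 := T.invertible_range_incl
  invertible1 := T.invertible_lattice1
  exists_mem0 z := by
    obtain ⟨N, v, h⟩ := T.exists_xR_pow_smul z
    exact ⟨N, v, h.symm⟩
  exists_mem1 z := by
    obtain ⟨N, v, h⟩ := T.exists_xR_pow_smul z
    obtain ⟨M, hM⟩ := T.exists_degLT v
    refine ⟨M, ?_⟩
    rw [← T.yR_pow_xR_pow N z, h, ← mul_smul, ← pow_add]
    exact T.lattice1_eq.symm.le (T.mem_negPart_of_degLT hM (by omega))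

theorem bundle_isAcyclic : T.bundle.IsAcyclic := by
  refine ⟨?_, ?_⟩
  · rw [disjoint_iff, eq_bot_iff]
    rintro z ⟨⟨v, rfl⟩, hz⟩
    obtain ⟨N, v', hv', h⟩ : T.incl v ∈ T.negPart := T.lattice1_eq ▸ hz
    have h' : D.xR R ^ N • v = v' := T.incl_injective (by
      rw [LinearMap.map_smul, h, xR_pow_yR_pow])
    subst h'
    have hv : v = 0 := T.coords_injective (funext fun j => Polynomial.ext fun e => by
      have := hv' j (e + N) (by omega)
      rw [xR_pow_smul, coords_smul_poly, Pi.smul_apply, smul_eq_mul, Polynomial.coeff_X_pow_mul]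
        at this
      exact this.trans (Polynomial.coeff_zero e).symm)
    simp [hv]
  · rw [codisjoint_iff, eq_top_iff]
    rintro z -
    obtain ⟨N, v, h⟩ := T.exists_xR_pow_smul z
    let low : T.Vec := T.vec fun j => ∑ d ∈ Finset.range N,
      Polynomial.monomial d ((T.coords v j).coeff d)
    obtain ⟨M, hM⟩ := T.exists_degLT v
    let high : T.Vec := T.vec fun j => ∑ d ∈ Finset.range M,
      Polynomial.monomial d ((T.coords v j).coeff (d + N))
    have hlow : T.DegLT low N := fun j e he => by
      change (∑ d ∈ Finset.range N, (_ : R[X])).coeff e = 0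
      rw [Polynomial.finsetSum_coeff]
      exact Finset.sum_eq_zero fun d hd => by
        rw [Polynomial.coeff_monomial, if_neg (by have := Finset.mem_range.1 hd; omega)]
    have hsplit : v = low + D.xR R ^ N • high := by
      refine T.coords_injective (funext fun j => ?_)
      ext e
      change _ = (T.coords low j + T.coords (D.xR R ^ N • high) j).coeff e
      rw [xR_pow_smul, coords_smul_poly, Polynomial.coeff_add, Pi.smul_apply, smul_eq_mul,
        Polynomial.coeff_X_pow_mul']
      by_cases he : e < N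
      · rw [if_neg (by omega), add_zero]
        change _ = (∑ d ∈ Finset.range N, (_ : R[X])).coeff e
        rw [Polynomial.finsetSum_coeff, Finset.sum_eq_single e
          (fun b _ hbd => by rw [Polynomial.coeff_monomial, if_neg hbd])
          (fun h => absurd (Finset.mem_range.2 he) h), Polynomial.coeff_monomial, if_pos rfl]
      · rw [hlow j e (not_lt.1 he), zero_add, if_pos (not_lt.1 he)]
        change _ = (∑ d ∈ Finset.range M, (_ : R[X])).coeff (e - N)
        rw [Polynomial.finsetSum_coeff]
        by_cases he' : e - N < M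
        · rw [Finset.sum_eq_single (e - N)
            (fun b _ hbd => by rw [Polynomial.coeff_monomial, if_neg hbd])
            (fun h => absurd (Finset.mem_range.2 he') h), Polynomial.coeff_monomial, if_pos rfl,
            Nat.sub_add_cancel (not_lt.1 he)]
        · rw [Finset.sum_eq_zero fun b hb => by
            rw [Polynomial.coeff_monomial, if_neg (by have := Finset.mem_range.1 hb; omega)]]
          exact hM j e (by omega)
    rw [← T.yR_pow_xR_pow N z, h, hsplit, map_add, smul_add, LinearMap.map_smul, yR_pow_xR_pow]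
    exact add_comm (G := T.Sect) _ _ ▸ Submodule.add_mem_sup (LinearMap.mem_range_self _ high)
      (T.lattice1_eq.symm.le (T.mem_negPart_of_degLT hlow le_rfl))

end Frame

end ChartData

end FermatLib.AV
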