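import Fermat.Agent.AV.Jac.Chart.FrameFacts
import Fermat.Agent.AV.Jac.Core.Iso

/-!
The normal form of a framed bundle: every framed bundle is the bundle of a frame.
-/

set_option autoImplicit false

universe u

open scoped TensorProduct Polynomial

namespace FermatLib.AV

namespace ChartData

variable {k : Type u} [Field k] {D : ChartData k} {R : Type u} [CommRing R] [Algebra k R]

namespace Bundle

namespace IsAcyclic

variable {B : D.Bundle R} (ψ : B.W ≃ₗ[R] (Fin D.n → R))

/-- The vectors dual to the coordinates. -/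
noncomputable def frameVec (j : Fin D.n) : B.M := (ψ.symm (Pi.single j 1) : B.W)

theorem frameVec_mem_W (j : Fin D.n) : frameVec ψ j ∈ B.W := (ψ.symm _).2

theorem symm_eq_sum (c : Fin D.n → R) :
    (ψ.symm c : B.M) = ∑ j, c j • frameVec ψ j := by
  conv_lhs => rw [show c = ∑ j, c j • (Pi.single j (1 : R) : Fin D.n → R) by
    funext i; simp [Finset.sum_apply, Pi.single_apply]]
  rw [map_sum, Submodule.coe_sum]
  exact Finset.sum_congr rfl fun j _ => by rw [map_smul, Submodule.coe_smul]; rfl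

/-- Polynomial combinations of the dual vectors. -/
noncomputable def polySum : (Fin D.n → R[X]) →ₗ[R] B.L0.restrictScalars R where
  toFun p := ⟨∑ j, Polynomial.aeval (D.xR R) (p j) • frameVec ψ j,
    B.L0.sum_mem fun j _ => B.L0.smul_mem _ (frameVec_mem_W ψ j).1⟩
  map_add' p q := Subtype.ext (by
    change ∑ j, Polynomial.aeval (D.xR R) ((p + q) j) • frameVec ψ j =
      ∑ j, Polynomial.aeval (D.xR R) (p j) • frameVec ψ j +
        ∑ j, Polynomial.aeval (D.xR R) (q j) • frameVec ψ j
    rw [← Finset.sum_add_distrib]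
    exact Finset.sum_congr rfl fun j _ => by rw [Pi.add_apply, map_add, add_smul])
  map_smul' r p := Subtype.ext (by
    change ∑ j, Polynomial.aeval (D.xR R) ((r • p) j) • frameVec ψ j = r • ∑ j, Polynomial.aeval (D.xR R) (p j) • frameVec ψ j
    rw [Finset.smul_sum]
    exact Finset.sum_congr rfl fun j _ => by rw [Pi.smul_apply, map_smul, smul_assoc])

theorem coe_polySum (p : Fin D.n → R[X]) :
    (polySum ψ p : B.M) = ∑ j, Polynomial.aeval (D.xR R) (p j) • frameVec ψ j := rfl

theorem polySum_smul (q : R[X]) (p : Fin D.n → R[X]) :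
    (polySum ψ (q • p) : B.M) = Polynomial.aeval (D.xR R) q • (polySum ψ p : B.M) := by
  rw [coe_polySum, coe_polySum, Finset.smul_sum]
  exact Finset.sum_congr rfl fun j _ => by rw [Pi.smul_apply, smul_eq_mul, map_mul, mul_smul]

theorem polySum_mulVec (M : Matrix (Fin D.n) (Fin D.n) R[X]) (b : D.R0 R)
    (h : ∀ c, (polySum ψ (fun r => M r c) : B.M) = b • frameVec ψ c) (p : Fin D.n → R[X]) :
    (polySum ψ (M.mulVec p) : B.M) = b • (polySum ψ p : B.M) := by
  have hM : M.mulVec p = ∑ c, p c • fun r => M r c := funext fun r => by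
    simp [Matrix.mulVec, dotProduct, mul_comm]
  rw [hM, map_sum, Submodule.coe_sum, coe_polySum ψ p, Finset.smul_sum]
  exact Finset.sum_congr rfl fun c _ => by rw [polySum_smul, h, smul_comm]

theorem polySum_eq_sum (p : Fin D.n → R[X]) {N : ℕ} (hN : ∀ j, (p j).natDegree < N) :
    (polySum ψ p : B.M) =
      ∑ d ∈ Finset.range N, D.xR R ^ d • (ψ.symm (fun j => (p j).coeff d) : B.M) := by
  simp only [coe_polySum, symm_eq_sum, Finset.smul_sum]
  rw [Finset.sum_comm]
  refine Finset.sum_congr rfl fun j _ => ?_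
  rw [Polynomial.aeval_eq_sum_range' (hN j), Finset.sum_smul]
  exact Finset.sum_congr rfl fun d _ => by rw [smul_assoc, smul_comm]

variable (hB : B.IsAcyclic)
include hB

theorem coeffW_polySum (p : Fin D.n → R[X]) (d : ℕ) :
    ψ (hB.coeffW d (polySum ψ p)) = fun j => (p j).coeff d := by
  let N := Finset.univ.sup (fun j => (p j).natDegree) + 1
  have hN : ∀ j, (p j).natDegree < N := fun j => Nat.lt_succ_of_le
    (Finset.le_sup (f := fun j => (p j).natDegree) (Finset.mem_univ j))
  rw [hB.coeffW_sum (fun d => ψ.symm fun j => (p j).coeff d) N _ (polySum_eq_sum ψ p hN) d]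
  split_ifs with h
  · exact ψ.apply_symm_apply _
  · rw [map_zero]
    exact funext fun j => (Polynomial.coeff_eq_zero_of_natDegree_lt
      ((hN j).trans_le (not_lt.1 h))).symm

theorem polySum_bijective : Function.Bijective (polySum ψ) := by
  refine ⟨fun p q h => funext fun j => Polynomial.ext fun d => ?_, fun m => ?_⟩
  · have h' := congr_fun (congrArg (fun m => ψ (hB.coeffW d m)) h) j
    simpa only [hB.coeffW_polySum] using h'
  · obtain ⟨N, hN⟩ := B.exists_mem1 (m : B.M)
    have hN' : D.yR R ^ (N + 1) • (m : B.M) ∈ B.L1 := by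
      rw [pow_succ', mul_smul]
      exact B.L1.smul_mem _ hN
    let p : Fin D.n → R[X] := fun j =>
      ∑ d ∈ Finset.range (N + 1), Polynomial.monomial d (ψ (hB.coeffW d m) j)
    have hp : ∀ j, (p j).natDegree < N + 1 := fun j => Nat.lt_succ_of_le
      (Polynomial.natDegree_sum_le_of_forall_le _ _ fun d hd =>
        (Polynomial.natDegree_monomial_le _).trans (Nat.lt_succ_iff.1 (Finset.mem_range.1 hd)))
    refine ⟨p, Subtype.ext ?_⟩
    rw [polySum_eq_sum ψ p hp, hB.eq_sum_coeffW m hN']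
    refine Finset.sum_congr rfl fun d hd => ?_
    have hc : (fun j => (p j).coeff d) = ψ (hB.coeffW d m) := funext fun j => by
      simp only [p, Polynomial.finsetSum_coeff, Polynomial.coeff_monomial]
      rw [Finset.sum_ite_eq' (Finset.range (N + 1)) d, if_pos hd]
    rw [hc, LinearEquiv.symm_apply_apply]

theorem coeff_eq_zero_of_yR_pow (p : Fin D.n → R[X]) {N e : ℕ}
    (h : D.yR R ^ N • (polySum ψ p : B.M) ∈ B.L1) (he : N ≤ e) (j : Fin D.n) :
    (p j).coeff e = 0 := by
  have h' := hB.coeffW_sum (fun d => hB.coeffW d (polySum ψ p)) N _ (hB.eq_sum_coeffW _ h) e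
  rw [if_neg (not_lt.2 he)] at h'
  have h'' := hB.coeffW_polySum ψ p e
  rw [h', map_zero] at h''
  exact (congr_fun h'' j).symm

/-- The matrices of the basis of the first chart in the coordinates. -/
noncomputable def frameMat : D.FrameMat R := fun i r c =>
  (LinearEquiv.ofBijective _ (hB.polySum_bijective ψ)).symm
    ⟨b0R (R := R) i • frameVec ψ c, B.L0.smul_mem _ (frameVec_mem_W ψ c).1⟩ r

theorem polySum_frameMat (i c : Fin D.n) :
    (polySum ψ (fun r => hB.frameMat ψ i r c) : B.M) = b0R (R := R) i • frameVec ψ c :=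
  congrArg Subtype.val ((LinearEquiv.ofBijective _ (hB.polySum_bijective ψ)).apply_symm_apply
    ⟨b0R (R := R) i • frameVec ψ c, B.L0.smul_mem _ (frameVec_mem_W ψ c).1⟩)

theorem frameMat_coeff (i r c : Fin D.n) (e : ℕ) :
    (hB.frameMat ψ i r c).coeff e = ψ (hB.opW (i, e) (ψ.symm (Pi.single c 1))) r := by
  rw [opW_apply]
  refine (congr_fun (hB.coeffW_polySum ψ (fun r => hB.frameMat ψ i r c) e) r).symm.trans ?_
  exact congr_fun (congrArg (fun m => ψ (hB.coeffW e m))
    (Subtype.ext (hB.polySum_frameMat ψ i c))) r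

theorem polySum_action (a : D.A0) (c : Fin D.n) :
    (polySum ψ (fun r => action (hB.frameMat ψ) a r c) : B.M) =
      ((1 : R) ⊗ₜ[k] a : D.R0 R) • frameVec ψ c := by
  have haeval : ∀ q : Polynomial k, Polynomial.aeval (D.xR R) (q.map (algebraMap k R)) =
      ((1 : R) ⊗ₜ[k] Polynomial.aeval D.x q : D.R0 R) := fun q => by
    rw [Polynomial.aeval_map_algebraMap]
    exact Polynomial.aeval_algHom_apply
      (Algebra.TensorProduct.includeRight : D.A0 →ₐ[k] D.R0 R) D.x q
  have hcol : (fun r => action (hB.frameMat ψ) a r c) =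
      ∑ l, (D.coord a l).map (algebraMap k R) • fun r => hB.frameMat ψ l r c := funext fun r => by
    simp [action_apply, Matrix.sum_apply, Finset.sum_apply]
  rw [hcol, map_sum, Submodule.coe_sum]
  conv_rhs => rw [← D.sum_coord a, TensorProduct.tmul_sum, Finset.sum_smul]
  refine Finset.sum_congr rfl fun l _ => ?_
  rw [polySum_smul, polySum_frameMat, smul_smul, haeval]
  congr 1
  simp [b0R, Algebra.TensorProduct.tmul_mul_tmul]

theorem frameMat_ext {M M' : Matrix (Fin D.n) (Fin D.n) R[X]}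
    (h : ∀ c, (polySum ψ (fun r => M r c) : B.M) = polySum ψ (fun r => M' r c)) : M = M' := by
  ext1 r c
  exact congr_fun ((hB.polySum_bijective ψ).1 (Subtype.ext (h c))) r

theorem wordMat_frameMat (l : List (Fin D.n × ℕ)) (c : Fin D.n → R) :
    ψ (hB.wordW l (ψ.symm c)) = (wordMat (hB.frameMat ψ) l).mulVec c := by
  induction l with
  | nil => rw [wordW_nil, wordMat_nil, Matrix.one_mulVec]; exact ψ.apply_symm_apply c
  | cons p l ih =>
    rw [wordW_cons, wordMat_cons, LinearMap.comp_apply, ← Matrix.mulVec_mulVec, ← ih]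
    have hlin : ψ.toLinearMap.comp ((hB.opW p).comp ψ.symm.toLinearMap) =
        Matrix.toLin' ((hB.frameMat ψ p.1).map (Polynomial.coeff · p.2)) := by
      refine (Pi.basisFun R (Fin D.n)).ext fun j => funext fun r => ?_
      simp only [Pi.basisFun_apply, LinearMap.comp_apply, LinearEquiv.coe_coe, Matrix.toLin'_apply,
        Matrix.mulVec_single_one]
      exact (hB.frameMat_coeff ψ p.1 r j p.2).symm
    have := LinearMap.congr_fun hlin (ψ (hB.wordW l (ψ.symm c)))
    simpa using this

omit hB in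
theorem functional_polySum (f : B.EpsFunctional)
    (hf : ∀ z : B.W, f.toLinearMap ⟨z, z.2.1⟩ = ψ z D.i₀) (p : Fin D.n → R[X]) :
    f.toLinearMap (polySum ψ p) = (p D.i₀).coeff 0 := by
  have hs : polySum ψ p = ∑ j, (⟨Polynomial.aeval (D.xR R) (p j) • frameVec ψ j,
      B.L0.smul_mem _ (frameVec_mem_W ψ j).1⟩ : B.L0.restrictScalars R) :=
    Subtype.ext (by rw [coe_polySum, Submodule.coe_sum])
  rw [hs, map_sum, Finset.sum_eq_single D.i₀]
  · refine (f.map_smul0 _ ⟨frameVec ψ D.i₀, (frameVec_mem_W ψ _).1⟩).trans ?_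
    have h1 : f.toLinearMap ⟨frameVec ψ D.i₀, (frameVec_mem_W ψ _).1⟩ = 1 :=
      (hf (ψ.symm (Pi.single D.i₀ 1))).trans (by simp)
    rw [h1, mul_one, ← Polynomial.aeval_algHom_apply, D.εR_xR,
      ← Polynomial.coeff_zero_eq_aeval_zero]
  · intro j _ hj
    refine (f.map_smul0 _ ⟨frameVec ψ j, (frameVec_mem_W ψ _).1⟩).trans ?_
    have h1 : f.toLinearMap ⟨frameVec ψ j, (frameVec_mem_W ψ _).1⟩ = 0 :=
      (hf (ψ.symm (Pi.single j 1))).trans (by simp [Ne.symm hj])
    rw [h1, mul_zero]
  · intro h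
    exact absurd (Finset.mem_univ _) h

theorem isFrame_frameMat {w : Fin D.n → List (Fin D.n × ℕ)} (f : B.EpsFunctional)
    (hf : ∀ z : B.W, f.toLinearMap ⟨z, z.2.1⟩ = ψ z D.i₀)
    (hψ : ∀ j (z : B.W), ψ z j = f.toLinearMap ⟨hB.wordW (w j) z, (hB.wordW (w j) z).2.1⟩) :
    IsFrame w (hB.frameMat ψ) where
  bound i r c e he := by
    rw [frameMat_coeff, hB.opW_eq_zero he, map_zero]
    rfl
  one := hB.frameMat_ext ψ fun c => by
    rw [polySum_action]
    have hc : (fun r => (1 : Matrix (Fin D.n) (Fin D.n) R[X]) r c) = Pi.single c 1 :=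
      funext fun r => by simp [Matrix.one_apply, Pi.single_apply]
    rw [hc, coe_polySum, Finset.sum_eq_single c (fun b _ hb => by simp [hb]) (by simp)]
    simp [Algebra.TensorProduct.one_def]
  mul i j := hB.frameMat_ext ψ fun c => by
    have hc : (fun r => (hB.frameMat ψ i * hB.frameMat ψ j) r c) =
        (hB.frameMat ψ i).mulVec fun r => hB.frameMat ψ j r c := rfl
    rw [polySum_action, hc, polySum_mulVec ψ _ (b0R (R := R) i) (hB.polySum_frameMat ψ i),
      polySum_frameMat, smul_smul]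
    congr 1
    simp [b0R, Algebra.TensorProduct.tmul_mul_tmul]
  bound1 i r c e he := by
    refine hB.coeff_eq_zero_of_yR_pow ψ (fun r => action (hB.frameMat ψ) (D.cof0 i) r c)
      (N := D.deg1 i + 1) ?_ he r
    rw [polySum_action]
    have h : D.yR R ^ (D.deg1 i + 1) • ((1 : R) ⊗ₜ[k] D.cof0 i : D.R0 R) • frameVec ψ c =
        ((1 : R) ⊗ₜ[k] D.b1 i : D.R1 R) • D.yR R • frameVec ψ c := by
      simp only [← B.smul0, ← B.smul1, smul_smul]
      congr 1
      simp only [map_pow, r1_tmul, r0_tmul, ← D.j0_cof0 i, Algebra.TensorProduct.tmul_pow,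
        Algebra.TensorProduct.tmul_mul_tmul, one_pow, one_mul]
      congr 1
      calc D.j1 D.y ^ (D.deg1 i + 1) * (D.j0 D.x ^ D.deg1 i * D.j1 (D.b1 i))
          = (D.j0 D.x * D.j1 D.y) ^ D.deg1 i * (D.j1 (D.b1 i) * D.j1 D.y) := by ring
        _ = D.j1 (D.b1 i) * D.j1 D.y := by rw [D.x_mul_y, one_pow, one_mul]
    rw [h]
    exact B.L1.smul_mem _ (frameVec_mem_W ψ c).2
  eps i c := by
    refine (functional_polySum ψ f hf (fun r => hB.frameMat ψ i r c)).symm.trans ?_
    refine Eq.trans (congrArg f.toLinearMap (a₂ :=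
      ⟨b0R (R := R) i • frameVec ψ c, B.L0.smul_mem _ (frameVec_mem_W ψ c).1⟩)
      (Subtype.ext (hB.polySum_frameMat ψ i c))) ?_
    refine (f.map_smul0 _ ⟨frameVec ψ c, (frameVec_mem_W ψ c).1⟩).trans ?_
    have h1 : f.toLinearMap ⟨frameVec ψ c, (frameVec_mem_W ψ c).1⟩ =
        (Pi.single c 1 : Fin D.n → R) D.i₀ :=
      (hf (ψ.symm (Pi.single c 1))).trans (by rw [LinearEquiv.apply_symm_apply])
    rw [h1, Pi.single_apply, b0R, εR_tmul, one_mul, mul_ite, mul_one, mul_zero]
    exact if_congr eq_comm rfl rfl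
  word j c := by
    have h := hB.wordMat_frameMat ψ (w j) (Pi.single c 1)
    rw [Matrix.mulVec_single_one] at h
    refine (congr_fun h D.i₀).symm.trans ?_
    rw [← hf, ← hψ, LinearEquiv.apply_symm_apply, Pi.single_apply]
    simp [eq_comm]

theorem polySum_actR {w : Fin D.n → List (Fin D.n × ℕ)} (T : D.Frame w R)
    (hT : T.1 = hB.frameMat ψ) (a : D.R0 R) (c : Fin D.n) :
    (polySum ψ (fun r => T.actR a r c) : B.M) = a • frameVec ψ c := by
  induction a using TensorProduct.induction_on with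
  | zero =>
    rw [map_zero, zero_smul]
    exact congrArg Subtype.val (map_zero (polySum ψ))
  | tmul s a =>
    have h : (fun r => T.actR (s ⊗ₜ[k] a) r c) =
        s • fun r => action (hB.frameMat ψ) a r c := funext fun r => by
      rw [Frame.actR_tmul, hT]
      rfl
    rw [h, map_smul, Submodule.coe_smul, polySum_action, ← smul_assoc, TensorProduct.smul_tmul',
      smul_eq_mul, mul_one]
  | add x y hx hy =>
    have h : (fun r => T.actR (x + y) r c) =
        (fun r => T.actR x r c) + fun r => T.actR y r c := funext fun r => by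
      rw [map_add]
      rfl
    rw [h, map_add, Submodule.coe_add, hx, hy, add_smul]

theorem exists_isom_frame {w : Fin D.n → List (Fin D.n × ℕ)} (T : D.Frame w R)
    (hT : T.1 = hB.frameMat ψ) : T.bundle.Isom B := by
  let := (D.r0 R).toRingHom.toAlgebra
  have : IsScalarTower (D.R0 R) (D.R01 R) B.M := IsScalarTower.of_algebraMap_smul B.smul0
  let u : T.Vec →ₗ[D.R0 R] B.M :=
    { toFun := fun v => (polySum ψ (T.coords v) : B.M)
      map_add' := fun x y => congrArg Subtype.val (map_add (polySum ψ) (T.coords x) (T.coords y))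
      map_smul' := fun a v => by
        rw [Frame.coords_smul]
        exact polySum_mulVec ψ _ a (hB.polySum_actR ψ T hT a) _ }
  let g : T.bundle.M →ₗ[D.R01 R] B.M :=
    (u.liftBaseChange (D.R01 R) : D.R01 R ⊗[D.R0 R] T.Vec →ₗ[D.R01 R] B.M)
  have hg : ∀ v, g (T.incl v) = polySum ψ (T.coords v) := fun v => by
    change u.liftBaseChange (D.R01 R) ((1 : D.R01 R) ⊗ₜ[D.R0 R] v) = _
    rw [LinearMap.liftBaseChange_tmul, one_smul]
    rfl
  refine isom_of_map_eq g ?_ ?_
  · refine le_antisymm ?_ fun m hm => ?_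
    · rintro _ ⟨_, ⟨v, rfl⟩, rfl⟩
      exact (hg v).symm ▸ (polySum ψ (T.coords v)).2
    · obtain ⟨p, hp⟩ := (hB.polySum_bijective ψ).2 ⟨m, hm⟩
      exact ⟨T.incl (T.vec p), LinearMap.mem_range_self _ _,
        (hg _).trans (congrArg Subtype.val hp)⟩
  · have hgen : ∀ j, g (T.gen1 j) = D.yR R • frameVec ψ j := fun j => by
      refine ((linear1 g).map_smul (D.yR R) _).trans ?_
      change D.yR R • g (T.incl (T.basisVec j)) = _
      rw [hg, coe_polySum, Finset.sum_eq_single j
        (fun b _ hb => by simp [Frame.coords, Frame.basisVec, Frame.vec, hb]) (by simp)]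
      simp [Frame.coords, Frame.basisVec, Frame.vec]
    change (Submodule.span (D.R1 R) (Set.range T.gen1)).map (linear1 g) = _
    rw [Submodule.map_span, ← Set.range_comp]
    refine le_antisymm (Submodule.span_le.2 ?_) fun m hm => ?_
    · rintro _ ⟨j, rfl⟩
      change g (T.gen1 j) ∈ B.L1
      rw [hgen]
      exact (frameVec_mem_W ψ j).2
    · obtain ⟨N, z, hz, rfl⟩ := hB.exists_sum_of_mem1 hm
      refine Submodule.sum_mem _ fun d hd => ?_
      obtain ⟨e, he⟩ := Nat.exists_eq_add_of_lt (Finset.mem_range.1 hd)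
      rw [show N - d = e + 1 by omega, pow_succ, mul_smul]
      refine Submodule.smul_mem _ _ ?_
      obtain ⟨c, hc⟩ := ψ.symm.surjective ⟨z d, hz d⟩
      rw [show z d = (ψ.symm c : B.M) by rw [hc], symm_eq_sum, Finset.smul_sum]
      refine Submodule.sum_mem _ fun j _ => ?_
      rw [smul_comm]
      exact Submodule.smul_of_tower_mem _ _ (Submodule.subset_span ⟨j, hgen j⟩)

end IsAcyclic

/-- A framed bundle is the bundle of a frame. -/
theorem IsFramed.exists_frame {w : Fin D.n → List (Fin D.n × ℕ)} (hw : w D.i₀ = [])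
    {B : D.Bundle R} (h : B.IsFramed w) : ∃ T : D.Frame w R, T.bundle.Isom B := by
  obtain ⟨hB, f, hbij⟩ := h
  let ψ : B.W ≃ₗ[R] (Fin D.n → R) := LinearEquiv.ofBijective _ hbij
  have hψ : ∀ j (z : B.W),
      ψ z j = f.toLinearMap ⟨hB.wordW (w j) z, (hB.wordW (w j) z).2.1⟩ := fun j z => rfl
  have hf : ∀ z : B.W, f.toLinearMap ⟨z, z.2.1⟩ = ψ z D.i₀ := fun z => by
    rw [hψ]
    congr 1
    ext
    rw [hw, IsAcyclic.wordW_nil]
    rfl
  have hT := hB.isFrame_frameMat ψ f hf hψ
  exact ⟨⟨hB.frameMat ψ, hT⟩, hB.exists_isom_frame ψ _ rfl⟩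

end Bundle

end ChartData

end FermatLib.AV
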