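import Fermat.Agent.AV.Jac.Chart.Functional
import Fermat.Agent.AV.Jac.Core.Functorial

/-!
Uniqueness and transport of functionals at the marked point.
-/

set_option autoImplicit false

universe u

open scoped TensorProduct

namespace FermatLib.AV

namespace ChartData

variable {k : Type u} [Field k] {D : ChartData k} {R : Type u} [CommRing R] [Algebra k R]

namespace Bundle

variable {B B' : D.Bundle R}

/-- Two functionals at the marked point agree up to a unit. -/
theorem EpsFunctional.exists_unit (f g : B.EpsFunctional) :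
    ∃ u : Rˣ, ∀ m, g.toLinearMap m = (u : R) * f.toLinearMap m := by
  let : Module (D.R0 R) R := Module.compHom R (D.εR R).toRingHom
  let f0 : B.L0 →ₗ[D.R0 R] R :=
    { toFun := fun m => f.toLinearMap ⟨m, m.2⟩
      map_add' := fun a b => map_add f.toLinearMap ⟨a, a.2⟩ ⟨b, b.2⟩
      map_smul' := fun a m => f.map_smul0 a ⟨m, m.2⟩ }
  let g0 : B.L0 →ₗ[D.R0 R] R :=
    { toFun := fun m => g.toLinearMap ⟨m, m.2⟩
      map_add' := fun a b => map_add g.toLinearMap ⟨a, a.2⟩ ⟨b, b.2⟩
      map_smul' := fun a m => g.map_smul0 a ⟨m, m.2⟩ }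
  let β : B.L0 →ₗ[D.R0 R] B.L0 →ₗ[D.R0 R] R :=
    LinearMap.mk₂ (D.R0 R) (fun m m' => f0 m * g0 m')
      (fun a b m => by rw [map_add, add_mul])
      (fun a m m' => by
        rw [map_smul]
        change D.εR R a * f0 m * g0 m' = D.εR R a * (f0 m * g0 m')
        ring)
      (fun m a b => by rw [map_add, mul_add])
      (fun a m m' => by
        rw [map_smul]
        change f0 m * (D.εR R a * g0 m') = D.εR R a * (f0 m * g0 m')
        ring)
  have key : ∀ m m' : B.L0, f0 m * g0 m' = f0 m' * g0 m := fun m m' =>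
    congrArg (TensorProduct.lift β)
      (Module.Invertible.tmul_comm (R := D.R0 R) (m₁ := m) (m₂ := m'))
  obtain ⟨m1, hm1⟩ := f.surjective 1
  obtain ⟨m2, hm2⟩ := g.surjective 1
  have h : ∀ m, g.toLinearMap m = g.toLinearMap m1 * f.toLinearMap m := fun m => by
    have h' : f.toLinearMap m1 * g.toLinearMap m = f.toLinearMap m * g.toLinearMap m1 :=
      key ⟨m1, m1.2⟩ ⟨m, m.2⟩
    rw [hm1, one_mul] at h'
    rw [h', mul_comm]
  have hu : IsUnit (g.toLinearMap m1) :=
    IsUnit.of_mul_eq_one (f.toLinearMap m2) (by rw [← h, hm2])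
  exact ⟨hu.unit, h⟩

/-- Transport of a functional along an isomorphism. -/
noncomputable def EpsFunctional.transport (f : B.EpsFunctional) (e : B.Iso B') :
    B'.EpsFunctional where
  toLinearMap := f.toLinearMap.comp
    (LinearMap.codRestrict (B.L0.restrictScalars R)
      ((e.toEquiv.symm.toLinearMap.restrictScalars R).comp (B'.L0.restrictScalars R).subtype)
      fun m => (e.mem0 _).1 (by simp))
  map_smul0 a m := by
    rw [LinearMap.comp_apply, LinearMap.comp_apply, ← f.map_smul0]
    congr 1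
    ext
    change e.toEquiv.symm (a • (m : B'.M)) = a • e.toEquiv.symm (m : B'.M)
    rw [← B'.smul0, map_smul, B.smul0]
  surjective r := by
    obtain ⟨m, hm⟩ := f.surjective r
    refine ⟨⟨e.toEquiv m, (e.mem0 _).2 m.2⟩, ?_⟩
    rw [LinearMap.comp_apply, ← hm]
    congr 1
    ext
    exact e.toEquiv.symm_apply_apply _

theorem EpsFunctional.transport_apply (f : B.EpsFunctional) (e : B.Iso B') {m : B.M}
    (hm : m ∈ B.L0) :
    (f.transport e).toLinearMap ⟨e.toEquiv m, (e.mem0 _).2 hm⟩ = f.toLinearMap ⟨m, hm⟩ := by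
  change f.toLinearMap _ = _
  congr 1
  ext
  exact e.toEquiv.symm_apply_apply _

theorem Iso.mem_W (e : B.Iso B') {m : B.M} : e.toEquiv m ∈ B'.W ↔ m ∈ B.W := by
  have h : D.yR R • e.toEquiv m = e.toEquiv (D.yR R • m) := by
    rw [← B.smul1, map_smul, B'.smul1]
  rw [Bundle.mem_W, Bundle.mem_W, e.mem0, h, e.mem1]

theorem Iso.wordW_apply (e : B.Iso B') (hB : B.IsAcyclic) (hB' : B'.IsAcyclic)
    (w : List (Fin D.n × ℕ)) (v : B.W) :
    (hB'.wordW w ⟨e.toEquiv v, e.mem_W.2 v.2⟩ : B'.M) = e.toEquiv (hB.wordW w v : B.M) :=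
  hB.wordW_map (φ := AlgHom.id k R) hB' e.toEquiv.toLinearMap.toAddMonoidHom
    (fun a m => by
      rw [map01_id]
      exact e.toEquiv.map_smul a m)
    (fun _ hm => (e.mem0 _).2 hm) (fun _ hm => e.mem_W.2 hm) w v

theorem Iso.wordCoord_transport (e : B.Iso B') (hB : B.IsAcyclic) (hB' : B'.IsAcyclic)
    (f : B.EpsFunctional) (w : Fin D.n → List (Fin D.n × ℕ)) (v : B.W) :
    wordCoord hB' (f.transport e) w ⟨e.toEquiv v, e.mem_W.2 v.2⟩ = wordCoord hB f w v := by
  funext j
  change (f.transport e).toLinearMap _ = f.toLinearMap _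
  have h := e.wordW_apply hB hB' (w j) v
  exact (congrArg (f.transport e).toLinearMap (Subtype.ext h)).trans
    (f.transport_apply e (hB.wordW (w j) v).2.1)

theorem IsFramed.bijective {w : Fin D.n → List (Fin D.n × ℕ)} (h : B.IsFramed w)
    (hB : B.IsAcyclic) (g : B.EpsFunctional) : Function.Bijective (wordCoord hB g w) := by
  obtain ⟨hB', f, hbij⟩ := h
  obtain ⟨u, hu⟩ := f.exists_unit g
  have hfun : (wordCoord hB g w : B.W → Fin D.n → R) = fun v => u • wordCoord hB f w v := by
    funext v j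
    exact hu _
  rw [hfun]
  exact (MulAction.bijective u).comp hbij

end Bundle

end ChartData

end FermatLib.AV
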