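import Fermat.Agent.AV.Jac.Chart.FrameBundle
import Fermat.Agent.AV.Jac.Chart.FunctionalLemmas

/-!
The generating space and the functional of the bundle of a frame.
-/

set_option autoImplicit false

universe u

open scoped TensorProduct Polynomial

namespace FermatLib.AV

namespace ChartData

variable {k : Type u} [Field k] {D : ChartData k} {R : Type u} [CommRing R] [Algebra k R]
  {w : Fin D.n → List (Fin D.n × ℕ)} (T : D.Frame w R)

namespace Frame

theorem incl_constVec_mem_W (c : Fin D.n → R) : T.incl (T.constVec c) ∈ T.bundle.W := by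
  refine ⟨LinearMap.mem_range_self _ _, ?_⟩
  have h := T.mem_negPart_of_degLT (T.degLT_constVec c) le_rfl
  rw [pow_one] at h
  exact T.lattice1_eq.symm.le h

theorem exists_constVec_of_mem_W {z : T.Sect} (hz : z ∈ T.bundle.W) :
    ∃ c, z = T.incl (T.constVec c) := by
  obtain ⟨⟨v, rfl⟩, hz1⟩ := hz
  obtain ⟨N, v', hv', h⟩ : D.yR R • T.incl v ∈ T.negPart := T.lattice1_eq.le hz1
  have h' : D.xR R ^ N • v = D.xR R • v' := T.incl_injective (by
    rw [LinearMap.map_smul, LinearMap.map_smul]
    have hx : T.incl v = D.xR R • D.yR R • T.incl v := by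
      have := T.xR_pow_yR_pow 1 (T.incl v)
      rw [pow_one, pow_one] at this
      exact this.symm
    rw [hx, h, smul_comm, T.xR_pow_yR_pow])
  refine ⟨fun j => (T.coords v j).coeff 0, congrArg T.incl (T.coords_injective (funext fun j => ?_))⟩
  ext e
  rw [coords_constVec, Polynomial.coeff_C]
  split_ifs with he
  · rw [he]
  · have hj := congrArg (fun f : R[X] => f.coeff (e + N)) (congr_fun (congrArg T.coords h') j)
    have hj' : (T.coords v j).coeff e = (T.coords v' j).coeff (e + N - 1) := by
      have h1 : e + N = (e + N - 1) + 1 := by omega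
      simp only [xR_pow_smul, xR_smul, coords_smul_poly, Pi.smul_apply, smul_eq_mul] at hj
      rw [Polynomial.coeff_X_pow_mul] at hj
      rw [hj, h1, Polynomial.coeff_X_mul, ← h1]
    rw [hj', hv' j _ (by omega)]

/-- The generating space of the bundle of a frame. -/
noncomputable def wEquiv : (Fin D.n → R) ≃ₗ[R] T.bundle.W :=
  LinearEquiv.ofBijective
    ({ toFun := fun c => ⟨T.incl (T.constVec c), T.incl_constVec_mem_W c⟩
       map_add' := fun a b => by
        ext1
        change T.incl _ = T.incl _ + T.incl _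
        rw [← map_add]
        exact congrArg T.incl (T.coords_injective (funext fun j => Polynomial.C_add))
       map_smul' := fun r a => by
        ext1
        change T.incl _ = r • T.incl _
        rw [← IsScalarTower.algebraMap_smul (D.R0 R) r (T.incl _), ← LinearMap.map_smul,
          algebraMap_smul_vec]
        exact congrArg T.incl (T.coords_injective (funext fun j => Polynomial.C_mul)) } :
      (Fin D.n → R) →ₗ[R] T.bundle.W)
    ⟨fun a b h => by
      have h' := congr_arg (fun v : T.Vec => T.coords v) (T.incl_injective (congrArg Subtype.val h))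
      funext j
      exact Polynomial.C_injective (congr_fun h' j),
    fun z => by
      obtain ⟨c, hc⟩ := T.exists_constVec_of_mem_W z.2
      exact ⟨c, Subtype.ext hc.symm⟩⟩

theorem coeffW_incl (v : T.Vec) (d : ℕ) :
    T.bundle_isAcyclic.coeffW d ⟨T.incl v, LinearMap.mem_range_self _ _⟩ =
      T.wEquiv fun j => (T.coords v j).coeff d := by
  obtain ⟨N, hN⟩ := T.exists_degLT v
  rw [T.bundle_isAcyclic.coeffW_sum (fun d => T.wEquiv fun j => (T.coords v j).coeff d) N]
  · split_ifs with h
    · rfl
    · rw [show (fun j => (T.coords v j).coeff d) = 0 from funext fun j => hN j d (not_lt.1 h),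
        map_zero]
  · change T.incl v = _
    conv_lhs => rw [T.eq_sum_constVec v hN, map_sum]
    exact Finset.sum_congr rfl fun e _ => LinearMap.map_smul T.incl _ _

theorem opW_wEquiv (p : Fin D.n × ℕ) (c : Fin D.n → R) :
    T.bundle_isAcyclic.opW p (T.wEquiv c) =
      T.wEquiv (((T.1 p.1).map (Polynomial.coeff · p.2)).mulVec c) := by
  rw [Bundle.IsAcyclic.opW_apply]
  have h : b0R (R := R) p.1 • (T.wEquiv c : T.Sect) =
      T.incl (b0R (R := R) p.1 • T.constVec c) := (LinearMap.map_smul T.incl _ _).symm
  refine Eq.trans (congrArg _ (Subtype.ext h)) ((T.coeffW_incl _ p.2).trans ?_)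
  congr 1
  funext r
  rw [coords_smul, actR_b0R]
  simp only [Matrix.mulVec, dotProduct, Polynomial.finsetSum_coeff, coords_constVec,
    Polynomial.coeff_mul_C, Matrix.map_apply]

theorem wordW_wEquiv (l : List (Fin D.n × ℕ)) (c : Fin D.n → R) :
    T.bundle_isAcyclic.wordW l (T.wEquiv c) = T.wEquiv ((wordMat T.1 l).mulVec c) := by
  induction l with
  | nil => rw [Bundle.IsAcyclic.wordW_nil, wordMat_nil, Matrix.one_mulVec]; rfl
  | cons p l ih =>
    rw [Bundle.IsAcyclic.wordW_cons, LinearMap.comp_apply, ih, opW_wEquiv, wordMat_cons,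
      Matrix.mulVec_mulVec]

theorem actR_coeff_zero (a : D.R0 R) (c : Fin D.n) :
    (T.actR a D.i₀ c).coeff 0 = if c = D.i₀ then D.εR R a else 0 := by
  induction a using TensorProduct.induction_on with
  | zero => simp
  | tmul r a =>
    have h : ∀ l, ((D.coord a l).map (algebraMap k R) * T.1 l D.i₀ c).coeff 0 =
        if c = D.i₀ then algebraMap k R (D.ε0 (Polynomial.aeval D.x (D.coord a l) * D.b0 l)) else 0 := by
      intro l
      rw [Polynomial.mul_coeff_zero, T.2.eps, Polynomial.coeff_map, map_mul, ← Polynomial.aeval_algHom_apply,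
        D.ε0_x, ← Polynomial.coeff_zero_eq_aeval_zero, map_mul]
      split_ifs <;> simp
    rw [actR_tmul, εR_tmul, action_apply, Matrix.smul_apply, Matrix.sum_apply, Polynomial.coeff_smul,
      Polynomial.finsetSum_coeff]
    simp only [Matrix.smul_apply, smul_eq_mul, h]
    split_ifs
    · rw [← map_sum, ← map_sum, D.sum_coord]
    · simp
  | add a b ha hb =>
    rw [map_add, Matrix.add_apply, Polynomial.coeff_add, ha, hb, map_add]
    split_ifs <;> simp

/-- The first coordinate at the origin, as a linear map on vectors. -/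
noncomputable def evalVec : LinearMap.range T.incl →+ R where
  toFun z := (T.coords ((LinearEquiv.ofInjective T.incl T.incl_injective).symm z) D.i₀).coeff 0
  map_zero' := by rw [map_zero]; exact Polynomial.coeff_zero 0
  map_add' a b := by rw [map_add]; exact Polynomial.coeff_add _ _ 0

theorem evalVec_smul (a : D.R0 R) (z : LinearMap.range T.incl) :
    T.evalVec (a • z) = D.εR R a * T.evalVec z := by
  change (T.coords ((LinearEquiv.ofInjective T.incl T.incl_injective).symm (a • z)) D.i₀).coeff 0 = _
  rw [map_smul, coords_smul, Matrix.mulVec, dotProduct, Polynomial.finsetSum_coeff]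
  simp only [Polynomial.mul_coeff_zero, actR_coeff_zero]
  rw [Finset.sum_eq_single D.i₀ (fun b _ hb => by rw [if_neg hb, zero_mul])
    (fun h => absurd (Finset.mem_univ _) h), if_pos rfl]
  rfl

theorem evalVec_incl (v : T.Vec) :
    T.evalVec ⟨T.incl v, LinearMap.mem_range_self _ _⟩ = (T.coords v D.i₀).coeff 0 := by
  have h : (LinearEquiv.ofInjective T.incl T.incl_injective).symm
      ⟨T.incl v, LinearMap.mem_range_self _ _⟩ = v := by
    rw [LinearEquiv.symm_apply_eq]
    rfl
  exact congrArg (fun v => (T.coords v D.i₀).coeff 0) h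

/-- The functional of the bundle of a frame. -/
noncomputable def functional : T.bundle.EpsFunctional where
  toLinearMap :=
    { toFun := fun z => T.evalVec ⟨z.1, z.2⟩
      map_add' := fun a b => map_add T.evalVec ⟨a.1, a.2⟩ ⟨b.1, b.2⟩
      map_smul' := fun r z => by
        have h := T.evalVec_smul (algebraMap R (D.R0 R) r) ⟨z.1, z.2⟩
        rw [AlgHom.commutes] at h
        refine (congrArg T.evalVec (Subtype.ext ?_)).trans (h.trans rfl)
        exact (IsScalarTower.algebraMap_smul (D.R0 R) r (z.1 : T.Sect)).symm }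
  map_smul0 a m := T.evalVec_smul a ⟨m.1, m.2⟩
  surjective r := ⟨⟨T.incl (T.constVec fun _ => r), LinearMap.mem_range_self _ _⟩,
    (T.evalVec_incl _).trans (by rw [coords_constVec, Polynomial.coeff_C_zero])⟩

theorem functional_wEquiv (c : Fin D.n → R) :
    T.functional.toLinearMap ⟨T.wEquiv c, (T.wEquiv c).2.1⟩ = c D.i₀ := by
  change T.evalVec ⟨T.incl (T.constVec c), _⟩ = _
  rw [evalVec_incl, coords_constVec, Polynomial.coeff_C_zero]

theorem wordCoord_wEquiv (c : Fin D.n → R) :
    Bundle.wordCoord T.bundle_isAcyclic T.functional w (T.wEquiv c) = c := by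
  funext j
  change T.functional.toLinearMap _ = _
  have h := T.wordW_wEquiv (w j) c
  refine Eq.trans (congrArg T.functional.toLinearMap
    (a₂ := ⟨T.wEquiv ((wordMat T.1 (w j)).mulVec c), (T.wEquiv _).2.1⟩) (Subtype.ext (by
      have hv := congrArg Subtype.val h
      exact hv))) ?_
  refine (T.functional_wEquiv _).trans ?_
  simp only [Matrix.mulVec, dotProduct]
  rw [Finset.sum_eq_single j (fun b _ hb => by rw [T.2.word, if_neg hb, zero_mul])
    (fun h => absurd (Finset.mem_univ _) h), T.2.word, if_pos rfl, one_mul]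

theorem bundle_isFramed : T.bundle.IsFramed w := by
  refine ⟨T.bundle_isAcyclic, T.functional, ?_⟩
  have h : (Bundle.wordCoord T.bundle_isAcyclic T.functional w : T.bundle.W → Fin D.n → R) =
      T.wEquiv.symm := by
    funext z
    obtain ⟨c, rfl⟩ := T.wEquiv.surjective z
    rw [T.wordCoord_wEquiv, LinearEquiv.symm_apply_apply]
  rw [h]
  exact T.wEquiv.symm.bijective

variable {T}

/-- A frame is determined by its bundle. -/
theorem eq_of_bundle_isom {T' : D.Frame w R} (h : T.bundle.Isom T'.bundle) : T = T' := by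
  obtain ⟨e⟩ := h
  obtain ⟨u, hu⟩ := T'.functional.exists_unit (T.functional.transport e)
  have hcoord : ∀ c : Fin D.n → R,
      e.toEquiv (T.wEquiv c : T.Sect) = (T'.wEquiv ((↑u⁻¹ : R) • c) : T'.Sect) := by
    intro c
    obtain ⟨c', hc'⟩ := T'.wEquiv.surjective ⟨e.toEquiv (T.wEquiv c : T.Sect), e.mem_W.2 (T.wEquiv c).2⟩
    have h1 := e.wordCoord_transport T.bundle_isAcyclic T'.bundle_isAcyclic T.functional w (T.wEquiv c)
    rw [T.wordCoord_wEquiv, ← hc'] at h1
    have h2 : (u : R) • c' = c := by
      rw [← h1]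
      funext j
      refine Eq.trans ?_ (hu _).symm
      rw [Pi.smul_apply, smul_eq_mul]
      refine congrArg ((u : R) * ·) ?_
      conv_lhs => rw [← T'.wordCoord_wEquiv c']
      rfl
    rw [show (↑u⁻¹ : R) • c = c' by rw [← h2, smul_smul, Units.inv_mul, one_smul], hc']
  have hop : ∀ (p : Fin D.n × ℕ) (c : Fin D.n → R),
      ((T.1 p.1).map (Polynomial.coeff · p.2)).mulVec c =
        ((T'.1 p.1).map (Polynomial.coeff · p.2)).mulVec c := by
    intro p c
    have h1 := e.wordW_apply T.bundle_isAcyclic T'.bundle_isAcyclic [p] (T.wEquiv c)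
    rw [show (⟨e.toEquiv (T.wEquiv c : T.Sect), e.mem_W.2 (T.wEquiv c).2⟩ : T'.bundle.W) =
      T'.wEquiv ((↑u⁻¹ : R) • c) from Subtype.ext (hcoord c), T'.wordW_wEquiv, T.wordW_wEquiv,
      hcoord] at h1
    have h2 := T'.wEquiv.injective (Subtype.ext h1)
    rw [Matrix.mulVec_smul, wordMat_cons, wordMat_cons, wordMat_nil, wordMat_nil, Matrix.mul_one,
      Matrix.mul_one] at h2
    have h3 := congrArg ((u : R) • ·) h2
    simp only [smul_smul, Units.mul_inv, one_smul] at h3
    exact h3.symm
  refine Subtype.ext (funext fun i => ?_)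
  ext r c d
  have h := congr_fun (hop (i, d) (Pi.single c 1)) r
  rwa [Matrix.mulVec_single_one, Matrix.mulVec_single_one] at h

end Frame

end ChartData

end FermatLib.AV
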