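import Fermat.Agent.AV.Jac.Chart.FrameFacts
import Fermat.Agent.AV.Jac.Core.BaseChange
import Fermat.Agent.AV.Jac.Core.Functorial

/-!
Framed bundles: rigidification, and change of coefficients of the bundle of a frame.
-/

set_option autoImplicit false

universe u

open scoped TensorProduct Polynomial

namespace FermatLib.AV

namespace ChartData

variable {k : Type u} [Field k] {D : ChartData k} {R : Type u} [CommRing R] [Algebra k R]
  {w : Fin D.n → List (Fin D.n × ℕ)}

namespace Bundle

variable {B B' : D.Bundle R}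

/-- The functional trivialises the fibre at the marked point. -/
theorem EpsFunctional.isRigidifiable (f : B.EpsFunctional) : B.IsRigidifiable := by
  let F0 : B.L0 →ₗ[R] R :=
    { toFun := fun m => f.toLinearMap ⟨m, m.2⟩
      map_add' := fun a b => map_add f.toLinearMap ⟨a, a.2⟩ ⟨b, b.2⟩
      map_smul' := fun r m => by
        have h : (⟨((r • m : B.L0) : B.M), (r • m).2⟩ : B.L0.restrictScalars R) = r • ⟨m, m.2⟩ :=
          Subtype.ext (Submodule.coe_smul_of_tower r m)
        exact (congrArg f.toLinearMap h).trans (map_smul f.toLinearMap r _) }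
  have hle : B.epsSubmodule.restrictScalars R ≤ LinearMap.ker F0 := by
    intro m hm
    rw [Submodule.restrictScalars_mem, epsSubmodule] at hm
    refine LinearMap.mem_ker.2 (Submodule.smul_induction_on (p := fun z : B.L0 => F0 z = 0) hm
      (fun a ha z _ => ?_) (fun a b ha hb => (map_add F0 a b).trans (by rw [ha, hb, add_zero])))
    refine (f.map_smul0 a ⟨z, z.2⟩).trans ?_
    rw [RingHom.mem_ker.1 ha, zero_mul]
  let q : (B.L0 ⧸ B.epsSubmodule) →ₗ[R] R :=
    ((B.epsSubmodule.restrictScalars R).liftQ F0 hle).comp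
      (Submodule.Quotient.restrictScalarsEquiv R B.epsSubmodule).symm.toLinearMap
  have hq : ∀ m : B.L0, q (Submodule.Quotient.mk m) = f.toLinearMap ⟨m, m.2⟩ := fun m => rfl
  obtain ⟨m1, hm1⟩ := f.surjective 1
  refine ⟨LinearEquiv.ofBijective q ⟨?_, fun r => ?_⟩⟩
  · rw [injective_iff_map_eq_zero]
    intro z hz
    obtain ⟨m, rfl⟩ := Submodule.Quotient.mk_surjective _ z
    rw [hq] at hz
    have key : ∀ (a : D.R0 R) (z : B.L0 ⧸ B.epsSubmodule),
        algebraMap R (D.R0 R) (D.εR R a) • z = a • z := fun a z => by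
      obtain ⟨x, rfl⟩ := Submodule.Quotient.mk_surjective _ z
      rw [← Submodule.Quotient.mk_smul, ← Submodule.Quotient.mk_smul, Submodule.Quotient.eq,
        ← sub_smul]
      exact Submodule.smul_mem_smul (RingHom.mem_ker.2 (by simp)) Submodule.mem_top
    let F : B.L0 → R := fun x => f.toLinearMap ⟨x, x.2⟩
    have hFadd : ∀ a b, F (a + b) = F a + F b := fun a b =>
      map_add f.toLinearMap ⟨a, a.2⟩ ⟨b, b.2⟩
    have hFsmul : ∀ (a : D.R0 R) (x : B.L0), F (a • x) = D.εR R a * F x := fun a x =>
      f.map_smul0 a ⟨x, x.2⟩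
    let β : B.L0 →ₗ[D.R0 R] B.L0 →ₗ[D.R0 R] B.L0 ⧸ B.epsSubmodule :=
      LinearMap.mk₂ (D.R0 R) (fun a b => algebraMap R (D.R0 R) (F a) • Submodule.Quotient.mk b)
        (fun a b c => by rw [hFadd, map_add, add_smul])
        (fun a x c => by rw [hFsmul, map_mul, mul_smul, key])
        (fun a b c => by rw [Submodule.Quotient.mk_add, smul_add])
        (fun a x c => by rw [Submodule.Quotient.mk_smul, smul_comm])
    have h := congrArg (TensorProduct.lift β)
        (Module.Invertible.tmul_comm (R := D.R0 R) (m₁ := (⟨m1, m1.2⟩ : B.L0)) (m₂ := m))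
    simp only [TensorProduct.lift.tmul, β, LinearMap.mk₂_apply] at h
    rwa [show F ⟨m1, m1.2⟩ = 1 from hm1, show F m = 0 from hz, map_one, map_zero, one_smul,
      zero_smul] at h
  · obtain ⟨m, hm⟩ := f.surjective r
    exact ⟨Submodule.Quotient.mk ⟨m, m.2⟩, (hq _).trans hm⟩

theorem IsFramed.isRigidifiable (h : B.IsFramed w) : B.IsRigidifiable :=
  h.elim fun _ h => h.elim fun f _ => f.isRigidifiable

end Bundle

namespace Frame

variable (T : D.Frame w R) {S : Type u} [CommRing S] [Algebra k S] (φ : R →ₐ[k] S)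

theorem actR_map0 (a : D.R0 R) :
    (T.map φ).actR (D.map0 φ a) = (T.actR a).map (Polynomial.mapRingHom φ.toRingHom) := by
  induction a using TensorProduct.induction_on with
  | zero => simp
  | tmul r a =>
    change (T.map φ).actR (φ r ⊗ₜ a) = _
    rw [actR_tmul, actR_tmul]
    ext i j : 2
    simp only [Matrix.smul_apply, Matrix.map_apply, Polynomial.coe_mapRingHom, Frame.map,
      action_mapMat, Polynomial.map_smul]
    rfl
  | add a b ha hb =>
    rw [map_add, map_add, map_add, ha, hb]
    ext i j : 2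
    simp

/-- Change of coefficients of polynomial vectors. -/
noncomputable def mapVec : T.Vec →+ (T.map φ).Vec where
  toFun v := (T.map φ).vec fun j => (T.coords v j).map φ.toRingHom
  map_zero' := funext fun _ => Polynomial.map_zero _
  map_add' _ _ := funext fun _ => Polynomial.map_add _

theorem mapVec_smul (a : D.R0 R) (v : T.Vec) :
    T.mapVec φ (a • v) = D.map0 φ a • T.mapVec φ v := by
  refine (T.map φ).coords_injective ?_
  rw [coords_smul (T.map φ), actR_map0]
  funext i
  change (T.coords (a • v) i).map φ.toRingHom = _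
  rw [coords_smul]
  exact RingHom.map_mulVec (Polynomial.mapRingHom φ.toRingHom) (T.actR a) (T.coords v) i

theorem mapVec_basisVec (j : Fin D.n) : T.mapVec φ (T.basisVec j) = (T.map φ).basisVec j := by
  refine funext fun i => ?_
  change ((Pi.single j 1 : Fin D.n → R[X]) i).map φ.toRingHom = (Pi.single j 1 : Fin D.n → S[X]) i
  simp only [Pi.single_apply]
  split_ifs <;> simp

theorem exists_mapSect : ∃ g : T.Sect →+ (T.map φ).Sect,
    (∀ (a : D.R01 R) (z : T.Sect), g (a • z) = D.map01 φ a • g z) ∧
      ∀ v, g (T.incl v) = (T.map φ).incl (T.mapVec φ v) := by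
  let := (D.r0 R).toRingHom.toAlgebra
  let F : D.R01 R →+ T.Vec →+ (T.map φ).Sect :=
    { toFun := fun a =>
        { toFun := fun v => D.map01 φ a • (T.map φ).incl (T.mapVec φ v)
          map_zero' := by rw [map_zero, map_zero, smul_zero]
          map_add' := fun x y => by rw [map_add, map_add, smul_add] }
      map_zero' := AddMonoidHom.ext fun v => by
        change D.map01 φ 0 • (T.map φ).incl (T.mapVec φ v) = (0 : (T.map φ).Sect)
        rw [map_zero, zero_smul]
      map_add' := fun a b => AddMonoidHom.ext fun v => by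
        change D.map01 φ (a + b) • (T.map φ).incl (T.mapVec φ v) =
          D.map01 φ a • (T.map φ).incl (T.mapVec φ v) + D.map01 φ b • (T.map φ).incl (T.mapVec φ v)
        rw [map_add, add_smul] }
  let g : T.Sect →+ (T.map φ).Sect := TensorProduct.liftAddHom F fun r a v => by
    change D.map01 φ (r • a) • (T.map φ).incl (T.mapVec φ v) =
      D.map01 φ a • (T.map φ).incl (T.mapVec φ (r • v))
    rw [mapVec_smul, LinearMap.map_smul, Algebra.smul_def, map_mul, mul_comm, mul_smul]
    refine congrArg (D.map01 φ a • ·) ?_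
    change D.map01 φ (D.r0 R r) • (T.map φ).incl (T.mapVec φ v) = D.r0 S (D.map0 φ r) • (T.map φ).incl (T.mapVec φ v)
    rw [map01_r0]
  have hincl : ∀ v, g (T.incl v) = (T.map φ).incl (T.mapVec φ v) := fun v => by
    change D.map01 φ 1 • (T.map φ).incl (T.mapVec φ v) = _
    rw [map_one, one_smul]
  have hbase : ∀ (a : D.R01 R) v, g (a • T.incl v) = D.map01 φ a • g (T.incl v) := fun a v => by
    rw [hincl]
    change D.map01 φ (a * 1) • (T.map φ).incl (T.mapVec φ v) = _
    rw [mul_one]
  refine ⟨g, fun a z => ?_, hincl⟩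
  induction z using T.sect_induction with
  | zero => simp
  | smul b v => rw [smul_smul, hbase, hbase, map_mul, mul_smul]
  | add x y hx hy => rw [smul_add, map_add, map_add, hx, hy, smul_add]

theorem isom_map_bundle : (T.bundle.map φ).Isom (T.map φ).bundle := by
  obtain ⟨g, hg, hincl⟩ := T.exists_mapSect φ
  refine Bundle.IsPullback.isom_map (g := g) ⟨hg, ?_, ?_⟩
  · refine le_antisymm (Submodule.span_le.2 ?_) ?_
    · rintro _ ⟨_, ⟨v, rfl⟩, rfl⟩
      rw [hincl]
      exact LinearMap.mem_range_self _ _
    · rintro _ ⟨v, rfl⟩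
      rw [show v = (T.map φ).vec ((T.map φ).coords v) from rfl, ← sum_basisVec, map_sum]
      refine Submodule.sum_mem _ fun j _ => ?_
      rw [LinearMap.map_smul, ← mapVec_basisVec, ← hincl]
      exact Submodule.smul_mem _ _ (Submodule.subset_span ⟨_, LinearMap.mem_range_self _ _, rfl⟩)
  · have hgen : ∀ j, g (T.gen1 j) = (T.map φ).gen1 j := fun j => by
      change g (D.r1 R (D.yR R) • T.incl (T.basisVec j)) = _
      rw [hg, map01_r1, map1_yR, hincl, mapVec_basisVec]
      rfl
    have hg1 : ∀ (a : D.R01 R) (m : T.bundle.M), g (a • m) = D.map01 φ a • g m := hg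
    refine le_antisymm (Submodule.span_le.2 ?_) (Submodule.span_le.2 ?_)
    · rintro _ ⟨z, hz, rfl⟩
      have h := Bundle.map_span1 (B := T.bundle) (C := (T.map φ).bundle) g hg1
        (Set.range T.gen1) z hz
      refine Submodule.span_mono ?_ h
      rintro _ ⟨_, ⟨j, rfl⟩, rfl⟩
      exact ⟨j, (hgen j).symm⟩
    · rintro _ ⟨j, rfl⟩
      exact Submodule.subset_span ⟨T.gen1 j, Submodule.subset_span ⟨j, rfl⟩, hgen j⟩

end Frame

end ChartData

end FermatLib.AV
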