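import Fermat.Agent.AV.Jac.Chart.Frame
import Fermat.Agent.AV.Jac.Core.BaseChange

/-!
The module of polynomial vectors with the action given by a frame, and its localisation.
-/

set_option autoImplicit false

universe u

open scoped TensorProduct Polynomial

namespace FermatLib.AV

namespace ChartData

variable {k : Type u} [Field k] {D : ChartData k} {R : Type u} [CommRing R] [Algebra k R]
  {w : Fin D.n → List (Fin D.n × ℕ)}

theorem coord_aeval_mul (p : Polynomial k) (a : D.A0) (l : Fin D.n) :
    D.coord (Polynomial.aeval D.x p * a) l = p * D.coord a l := by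
  refine congr_fun (show D.coord (Polynomial.aeval D.x p * a) = fun l => p * D.coord a l from
    D.coeffEquiv0.injective ?_) l
  rw [LinearEquiv.apply_symm_apply]
  refine (congrArg (Polynomial.aeval D.x p * ·) (D.sum_coord a).symm).trans ?_
  change Polynomial.aeval D.x p * _ = ∑ i, Polynomial.aeval D.x (p * D.coord a i) * D.b0 i
  rw [Finset.mul_sum]
  exact Finset.sum_congr rfl fun i _ => by rw [map_mul, mul_assoc]

theorem action_aeval_mul (T : D.FrameMat R) (p : Polynomial k) (a : D.A0) :
    action T (Polynomial.aeval D.x p * a) = p.map (algebraMap k R) • action T a := by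
  simp only [action_apply, coord_aeval_mul, Polynomial.map_mul, Finset.smul_sum, mul_smul]

theorem coord_b0 (i l : Fin D.n) : D.coord (D.b0 i) l = if l = i then 1 else 0 := by
  refine congr_fun (show D.coord (D.b0 i) = fun l => if l = i then 1 else 0 from
    D.coeffEquiv0.injective ?_) l
  rw [LinearEquiv.apply_symm_apply]
  change D.b0 i = ∑ l, Polynomial.aeval D.x (if l = i then 1 else 0 : Polynomial k) * D.b0 l
  rw [Finset.sum_eq_single i (fun b _ hb => by simp [hb]) (by simp)]
  simp

theorem action_b0 (T : D.FrameMat R) (i : Fin D.n) : action T (D.b0 i) = T i := by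
  rw [action_apply, Finset.sum_eq_single i (fun b _ hb => by simp [coord_b0, hb]) (by simp)]
  simp [coord_b0]

theorem IsFrame.action_mul {T : D.FrameMat R} (h : IsFrame w T) (a b : D.A0) :
    action T (a * b) = action T a * action T b := by
  conv_lhs => rw [← D.sum_coord a, ← D.sum_coord b, Finset.sum_mul_sum]
  conv_rhs => rw [action_apply, action_apply, Finset.sum_mul_sum]
  rw [map_sum]
  refine Finset.sum_congr rfl fun i _ => ?_
  rw [map_sum]
  refine Finset.sum_congr rfl fun j _ => ?_
  rw [mul_mul_mul_comm, ← map_mul, action_aeval_mul, h.mul, Polynomial.map_mul,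
    smul_mul_smul_comm]

variable (T : D.Frame w R)

namespace Frame

/-- The action of the first chart on polynomial vectors. -/
noncomputable def actAlg : D.A0 →ₐ[k] Matrix (Fin D.n) (Fin D.n) R[X] :=
  AlgHom.ofLinearMap (action T.1) T.2.one T.2.action_mul

theorem commute_scalar (r : R) (a : D.A0) :
    Commute (((Algebra.ofId R (Matrix (Fin D.n) (Fin D.n) R[X])).restrictScalars k) r) (T.actAlg a) :=
  Algebra.commutes r (T.actAlg a)

/-- The action with coefficients. -/
noncomputable def actR : D.R0 R →ₐ[k] Matrix (Fin D.n) (Fin D.n) R[X] :=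
  Algebra.TensorProduct.lift ((Algebra.ofId R (Matrix (Fin D.n) (Fin D.n) R[X])).restrictScalars k)
    T.actAlg T.commute_scalar

theorem actR_tmul (r : R) (a : D.A0) : T.actR (r ⊗ₜ a) = r • action T.1 a := by
  rw [actR, Algebra.TensorProduct.lift_tmul, Algebra.smul_def]
  rfl

theorem actR_xR : T.actR (D.xR R) = (Polynomial.X : R[X]) • (1 : Matrix (Fin D.n) (Fin D.n) R[X]) := by
  rw [actR_tmul, one_smul]
  have h := action_aeval_mul T.1 Polynomial.X 1
  rwa [Polynomial.aeval_X, mul_one, Polynomial.map_X, T.2.one] at h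

theorem actR_b0R (i : Fin D.n) : T.actR (b0R (R := R) i) = T.1 i := by
  rw [actR_tmul, one_smul, action_b0]

/-- Polynomial vectors, acted on through the frame. -/
def Vec (_T : D.Frame w R) : Type u := Fin D.n → R[X]

noncomputable instance instAddCommGroupVec : AddCommGroup T.Vec :=
  (inferInstance : AddCommGroup (Fin D.n → R[X]))

noncomputable instance instModulePolyVec : Module R[X] T.Vec :=
  (inferInstance : Module R[X] (Fin D.n → R[X]))

noncomputable instance instModuleVec : Module (D.R0 R) T.Vec :=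
  letI : Module (Matrix (Fin D.n) (Fin D.n) R[X]) (Fin D.n → R[X]) :=
    Module.compHom _ (Matrix.toLinAlgEquiv' (R := R[X]) (n := Fin D.n)).toRingEquiv.toRingHom
  (Module.compHom (Fin D.n → R[X]) T.actR.toRingHom : Module (D.R0 R) (Fin D.n → R[X]))

/-- A polynomial vector as an element of the module of the frame. -/
def vec (v : Fin D.n → R[X]) : T.Vec := v

/-- An element of the module of the frame as a polynomial vector. -/
def coords (v : T.Vec) : Fin D.n → R[X] := v

theorem coords_smul (a : D.R0 R) (v : T.Vec) :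
    T.coords (a • v) = Matrix.mulVec (T.actR a) (T.coords v) := rfl

theorem coords_smul_poly (p : R[X]) (v : T.Vec) : T.coords (p • v) = p • T.coords v := rfl

theorem xR_smul (v : T.Vec) : D.xR R • v = (Polynomial.X : R[X]) • v := by
  change T.coords (D.xR R • v) = T.coords ((Polynomial.X : R[X]) • v)
  rw [coords_smul, actR_xR, Matrix.smul_mulVec, Matrix.one_mulVec, coords_smul_poly]

theorem algebraMap_smul_vec (r : R) (v : T.Vec) :
    algebraMap R (D.R0 R) r • v = Polynomial.C r • v := by
  change T.coords (algebraMap R (D.R0 R) r • v) = T.coords (Polynomial.C r • v)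
  rw [coords_smul, coords_smul_poly, show algebraMap R (D.R0 R) r = r ⊗ₜ[k] (1 : D.A0) from rfl,
    actR_tmul, T.2.one, Algebra.smul_def, mul_one]
  rw [Matrix.algebraMap_eq_diagonal]
  funext i
  simp [Matrix.mulVec_diagonal]

theorem aeval_xR_smul (p : R[X]) (v : T.Vec) : Polynomial.aeval (D.xR R) p • v = p • v := by
  induction p using Polynomial.induction_on generalizing v with
  | C r => rw [Polynomial.aeval_C, algebraMap_smul_vec]
  | add p q hp hq => rw [map_add, add_smul, hp, hq, add_smul]
  | monomial d r h =>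
    rw [pow_succ, ← mul_assoc, map_mul, Polynomial.aeval_X, mul_smul, xR_smul, h,
      mul_smul (Polynomial.C r * Polynomial.X ^ d) Polynomial.X]

theorem xR_pow_smul (d : ℕ) (v : T.Vec) : D.xR R ^ d • v = (Polynomial.X : R[X]) ^ d • v := by
  rw [← T.aeval_xR_smul, map_pow, Polynomial.aeval_X]

/-- The sections over the overlap. -/
def Sect : Type u :=
  letI := (D.r0 R).toRingHom.toAlgebra; D.R01 R ⊗[D.R0 R] T.Vec

noncomputable instance instAddCommGroupSect : AddCommGroup T.Sect :=
  letI := (D.r0 R).toRingHom.toAlgebra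
  (inferInstance : AddCommGroup (D.R01 R ⊗[D.R0 R] T.Vec))

noncomputable instance instModule01Sect : Module (D.R01 R) T.Sect :=
  letI := (D.r0 R).toRingHom.toAlgebra
  (inferInstance : Module (D.R01 R) (D.R01 R ⊗[D.R0 R] T.Vec))

noncomputable instance instModule0Sect : Module (D.R0 R) T.Sect :=
  Module.compHom _ (D.r0 R).toRingHom

noncomputable instance instModule1Sect : Module (D.R1 R) T.Sect :=
  Module.compHom _ (D.r1 R).toRingHom

noncomputable instance instModuleSect : Module R T.Sect :=
  Module.compHom _ (algebraMap R (D.R01 R))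

instance instTower01Sect : IsScalarTower R (D.R01 R) T.Sect :=
  IsScalarTower.of_algebraMap_smul fun _ _ => rfl

instance instTower0Sect : IsScalarTower R (D.R0 R) T.Sect :=
  IsScalarTower.of_algebraMap_smul fun r m => by
    change D.r0 R (algebraMap R (D.R0 R) r) • m = algebraMap R (D.R01 R) r • m
    rw [AlgHom.commutes]

instance instTower1Sect : IsScalarTower R (D.R1 R) T.Sect :=
  IsScalarTower.of_algebraMap_smul fun r m => by
    change D.r1 R (algebraMap R (D.R1 R) r) • m = algebraMap R (D.R01 R) r • m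
    rw [AlgHom.commutes]

/-- Restriction to the overlap. -/
noncomputable def incl : T.Vec →ₗ[D.R0 R] T.Sect :=
  letI := (D.r0 R).toRingHom.toAlgebra
  { toFun := fun v => ((1 : D.R01 R) ⊗ₜ[D.R0 R] v : D.R01 R ⊗[D.R0 R] T.Vec)
    map_add' := fun a b => TensorProduct.tmul_add (1 : D.R01 R) a b
    map_smul' := fun a v => by
      change ((1 : D.R01 R) ⊗ₜ[D.R0 R] (a • v) : D.R01 R ⊗[D.R0 R] T.Vec) =
        D.r0 R a • ((1 : D.R01 R) ⊗ₜ[D.R0 R] v)
      rw [TensorProduct.smul_tmul', TensorProduct.tmul_smul, TensorProduct.smul_tmul',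
        Algebra.smul_def, smul_eq_mul]
      rfl }

theorem sect_induction {p : T.Sect → Prop} (zero : p 0)
    (smul : ∀ (a : D.R01 R) (v : T.Vec), p (a • T.incl v))
    (add : ∀ x y, p x → p y → p (x + y)) (z : T.Sect) : p z := by
  let := (D.r0 R).toRingHom.toAlgebra
  induction (z : D.R01 R ⊗[D.R0 R] T.Vec) using TensorProduct.induction_on with
  | zero => exact zero
  | tmul a m =>
    have h : (a ⊗ₜ[D.R0 R] m : D.R01 R ⊗[D.R0 R] T.Vec) = a • ((1 : D.R01 R) ⊗ₜ[D.R0 R] m) := by
      rw [TensorProduct.smul_tmul', smul_eq_mul, mul_one]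
    rw [h]
    exact smul a m
  | add x y hx hy => exact add x y hx hy

theorem isLocalization_r0 :
    letI := (D.r0 R).toRingHom.toAlgebra
    IsLocalization.Away (D.xR R) (D.R01 R) := by
  let := (D.r0 R).toRingHom.toAlgebra
  exact
    { map_units := by
        rintro ⟨_, N, rfl⟩
        exact IsUnit.of_mul_eq_one (D.r1 R (D.yR R) ^ N) (by
          change D.r0 R (D.xR R ^ N) * _ = 1
          rw [map_pow, ← mul_pow, D.r0_x_mul_r1_y, one_pow])
      surj := fun a => by
        obtain ⟨N, a0, h⟩ := D.exists_pow_mul_r0 R a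
        exact ⟨⟨a0, ⟨_, N, rfl⟩⟩, by rw [mul_comm]; simpa [RingHom.algebraMap_toAlgebra] using h⟩
      exists_of_eq := fun {a b} h => ⟨1, by rw [D.r0_injective R h]⟩ }

theorem incl_injective : Function.Injective T.incl := by
  let := (D.r0 R).toRingHom.toAlgebra
  have := isLocalization_r0 (D := D) (R := R)
  let i : T.Vec →ₗ[D.R0 R] D.R01 R ⊗[D.R0 R] T.Vec := TensorProduct.mk (D.R0 R) (D.R01 R) T.Vec 1
  have hl : IsLocalizedModule (Submonoid.powers (D.xR R)) i :=
    (isLocalizedModule_iff_isBaseChange (Submonoid.powers (D.xR R)) (D.R01 R) i).2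
      (TensorProduct.isBaseChange (D.R0 R) T.Vec (D.R01 R))
  intro a b h
  obtain ⟨⟨_, N, rfl⟩, hc⟩ := IsLocalizedModule.exists_of_eq (S := Submonoid.powers (D.xR R))
    (f := i) h
  have hc' : D.xR R ^ N • a = D.xR R ^ N • b := hc
  rw [xR_pow_smul, xR_pow_smul] at hc'
  funext j
  have hj : (Polynomial.X : R[X]) ^ N * T.coords a j = Polynomial.X ^ N * T.coords b j :=
    congr_fun hc' j
  exact (Polynomial.monic_X_pow N).isRegular.left hj

theorem exists_xR_pow_smul (z : T.Sect) : ∃ (N : ℕ) (v : T.Vec), D.xR R ^ N • z = T.incl v := by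
  induction z using T.sect_induction with
  | zero => exact ⟨0, 0, by simp⟩
  | smul a v =>
    obtain ⟨N, a0, ha⟩ := D.exists_pow_mul_r0 R a
    refine ⟨N, a0 • v, ?_⟩
    rw [LinearMap.map_smul]
    change D.r0 R (D.xR R ^ N) • a • T.incl v = D.r0 R a0 • T.incl v
    rw [smul_smul, map_pow, ha]
  | add z z' hz hz' =>
    obtain ⟨N, v, hz⟩ := hz
    obtain ⟨N', v', hz'⟩ := hz'
    refine ⟨N + N', D.xR R ^ N' • v + D.xR R ^ N • v', ?_⟩
    rw [smul_add, map_add, LinearMap.map_smul, LinearMap.map_smul, ← hz, ← hz', smul_smul,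
      smul_smul, ← pow_add, ← pow_add, add_comm N']

end Frame

end ChartData

end FermatLib.AV
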