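import Fermat.Agent.AV.Jac.Chart.FramedOpen
import Fermat.Agent.AV.Jac.Chart.FrameExists
import Fermat.Agent.AV.Jac.Chart.FrameMap
import Fermat.Agent.AV.Jac.Core.FreeInvertible

/-!
Framed bundles: normal forms, openness and existence of frames.
-/

set_option autoImplicit false
set_option linter.unusedVariables false

universe u

open scoped TensorProduct

namespace FermatLib.AV

namespace ChartData

variable {k : Type u} [Field k] {D : ChartData k} {R : Type u} [CommRing R] [Algebra k R]
  {w : Fin D.n → List (Fin D.n × ℕ)}

theorem Frame.isFramed_bundle (hw : w D.i₀ = []) (T : D.Frame w R) : T.bundle.IsFramed w :=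
  T.bundle_isFramed

theorem Frame.eq_of_isom (hw : w D.i₀ = []) {T T' : D.Frame w R} (h : T.bundle.Isom T'.bundle) :
    T = T' :=
  Frame.eq_of_bundle_isom h

end ChartData

end FermatLib.AV
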