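import Fermat.Agent.AV.Jac.Chart.FunctionalBaseChange

/-!
Framed bundles over fields and in families: descent, openness and existence of frames.
-/

set_option autoImplicit false

universe u

open scoped TensorProduct

namespace FermatLib.AV

namespace ChartData

variable {k : Type u} [Field k] {D : ChartData k} {R : Type u} [CommRing R] [Algebra k R]
  {w : Fin D.n → List (Fin D.n × ℕ)}

/-- Surjectivity of a fibre is the vanishing of the cokernel there. -/
theorem surjective_baseChange_residueField_iff {P M : Type u} [AddCommGroup P] [Module R P]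
    [AddCommGroup M] [Module R M] [Module.Finite R M] (g : P →ₗ[R] M) (p : PrimeSpectrum R) :
    Function.Surjective (g.baseChange p.asIdeal.ResidueField) ↔
      p ∉ Module.support R (M ⧸ LinearMap.range g) := by
  obtain ⟨ec⟩ := nonempty_equiv_coker_baseChange (S := p.asIdeal.ResidueField) g
  rw [Module.mem_support_iff_nontrivial_residueField_tensorProduct,
    not_nontrivial_iff_subsingleton, ← ec.toEquiv.subsingleton_congr,
    Submodule.Quotient.subsingleton_iff, LinearMap.range_eq_top]

theorem injective_one_tmul {K : Type u} [Field K] (L : Type u) [Field L] [Algebra K L]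
    (P : Type u) [AddCommGroup P] [Module K P] :
    Function.Injective fun m : P => (1 : L) ⊗ₜ[K] m := by
  have h : Function.Injective ((Algebra.linearMap K L).rTensor P) :=
    Module.Flat.rTensor_preserves_injective_linearMap _ (algebraMap K L).injective
  have h' := h.comp (TensorProduct.lid K P).symm.injective
  intro a b hab
  exact h' (by simpa using hab)

namespace Bundle

variable {B : D.Bundle R}

section Field

variable {K : Type u} [Field K] [Algebra k K] {C : D.Bundle K}

theorem isFramed_mapTo_iff_of_functional (f : C.EpsFunctional) (L : Type u) [Field L]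
    [Algebra k L] [Algebra K L] [IsScalarTower k K L] :
    (C.mapTo L).IsFramed w ↔ C.IsFramed w := by
  constructor
  · intro hF
    obtain ⟨hL, -, -⟩ := id hF
    obtain ⟨e, E, -, hE⟩ := C.exists_cech_baseChange L
    have hinj : Function.Injective C.sumMap := by
      rw [injective_iff_map_eq_zero]
      intro p hp
      have h : (C.mapTo L).sumMap (E (1 ⊗ₜ p)) = 0 := by
        rw [hE, LinearMap.baseChange_tmul, hp, TensorProduct.tmul_zero, map_zero]
      have h2 := E.injective (((isAcyclic_iff_bijective.1 hL).1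
        (h.trans (map_zero _).symm)).trans (map_zero E).symm)
      exact injective_one_tmul L C.Pairs (h2.trans (TensorProduct.tmul_zero _ _).symm)
    have hC : C.IsAcyclic := by
      refine isAcyclic_iff_chi_inf.2
        ⟨(C.chi_mapTo L).symm.trans (isAcyclic_iff_chi_inf.1 hL).1, (Submodule.eq_bot_iff _).2 ?_⟩
      intro m hm
      have : Subsingleton (LinearMap.ker C.sumMap) := by
        rw [LinearMap.ker_eq_bot.2 hinj]; infer_instance
      have : Subsingleton C.H0 := C.kerSumMapEquiv.symm.toEquiv.subsingleton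
      exact congrArg Subtype.val (Subsingleton.elim (⟨m, hm⟩ : C.H0) 0)
    have hb := (hC.isFramed_mapTo_iff_bijective f L).1 hF
    have hg : Function.Injective (wordCoord hC f w) := by
      intro a b h
      refine injective_one_tmul L C.W (hb.1 ?_)
      rw [LinearMap.baseChange_tmul, LinearMap.baseChange_tmul, h]
    have := hC.finite_W
    exact ⟨hC, f, hg, (LinearMap.injective_iff_surjective_of_finrank_eq_finrank
      (by rw [hC.finrank_W, Module.finrank_pi, Fintype.card_fin])).1 hg⟩
  · exact fun h => h.map _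

/-- A frame descends along an extension of the ground field. -/
theorem isFramed_mapTo_iff (C : D.Bundle K)
    (hrig : C.IsRigidifiable) (L : Type u) [Field L] [Algebra k L] [Algebra K L]
    [IsScalarTower k K L] : (C.mapTo L).IsFramed w ↔ C.IsFramed w := by
  obtain ⟨f⟩ := hrig.exists_functional
  exact isFramed_mapTo_iff_of_functional f L

end Field

theorem isFramed_mapTo_mapTo_iff (f : B.EpsFunctional) (L : Type u) [CommRing L] [Algebra k L]
    [Algebra R L] [IsScalarTower k R L] (q : PrimeSpectrum L) :
    ((B.mapTo L).mapTo q.asIdeal.ResidueField).IsFramed w ↔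
      (B.mapTo (PrimeSpectrum.comap (algebraMap R L) q).asIdeal.ResidueField).IsFramed w := by
  let F := q.asIdeal.ResidueField
  let p : PrimeSpectrum R := PrimeSpectrum.comap (algebraMap R L) q
  let ι : p.asIdeal.ResidueField →ₐ[k] F :=
    Ideal.ResidueField.mapₐ p.asIdeal q.asIdeal (IsScalarTower.toAlgHom k R L) rfl
  let : Algebra p.asIdeal.ResidueField F := ι.toRingHom.toAlgebra
  have : IsScalarTower k p.asIdeal.ResidueField F :=
    IsScalarTower.of_algebraMap_eq fun a => (ι.commutes a).symm
  obtain ⟨f', -⟩ := f.exists_mapTo p.asIdeal.ResidueField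
  have h : ((B.mapTo L).mapTo F).Isom ((B.mapTo p.asIdeal.ResidueField).mapTo F) := by
    have h1 := B.isom_map_map (IsScalarTower.toAlgHom k R L) (IsScalarTower.toAlgHom k L F)
    have h2 := B.isom_map_map (IsScalarTower.toAlgHom k R p.asIdeal.ResidueField)
      (IsScalarTower.toAlgHom k p.asIdeal.ResidueField F)
    have he : (IsScalarTower.toAlgHom k L F).comp (IsScalarTower.toAlgHom k R L) =
        (IsScalarTower.toAlgHom k p.asIdeal.ResidueField F).comp
          (IsScalarTower.toAlgHom k R p.asIdeal.ResidueField) := by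
      ext r
      change algebraMap L F (algebraMap R L r) = ι (algebraMap R p.asIdeal.ResidueField r)
      exact (Ideal.ResidueField.map_algebraMap _ _ _ _ r).symm
    rw [he] at h1
    exact h1.trans h2.symm
  exact ⟨fun hq => (isFramed_mapTo_iff_of_functional f' F).1 (h.isFramed hq),
    fun hp => h.symm.isFramed (hp.map _)⟩

/-- Being framed is open in a family. -/
theorem isOpen_setOf_isFramed (hchi : ∀ p : PrimeSpectrum R, (B.mapTo p.asIdeal.ResidueField).chi = 0)
    (hrig : B.IsRigidifiable) :
    IsOpen {p : PrimeSpectrum R | (B.mapTo p.asIdeal.ResidueField).IsFramed w} := by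
  obtain ⟨f⟩ := hrig.exists_functional
  refine isOpen_iff_forall_mem_open.2 fun p hp => ?_
  obtain ⟨hA, -, -⟩ := id hp
  obtain ⟨r, hr, hL⟩ := exists_away_isAcyclic hchi hA
  let L := Localization.Away r
  obtain ⟨fL, -⟩ := f.exists_mapTo L
  let g := wordCoord hL fL w
  let V : Set (PrimeSpectrum L) := (Module.support L ((Fin D.n → L) ⧸ LinearMap.range g))ᶜ
  refine ⟨PrimeSpectrum.comap (algebraMap R L) '' V, ?_,
    (PrimeSpectrum.localization_away_isOpenEmbedding L r).isOpenMap V
      Module.isClosed_support.isOpen_compl, ?_⟩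
  · rintro _ ⟨q, hq, rfl⟩
    exact (isFramed_mapTo_mapTo_iff f L q).1 (hL.isFramed_mapTo_of_surjective fL _
      ((surjective_baseChange_residueField_iff g q).2 hq))
  · have hp' : p ∈ Set.range (PrimeSpectrum.comap (algebraMap R L)) := by
      rw [PrimeSpectrum.localization_away_comap_range L r]
      exact hr
    obtain ⟨q, rfl⟩ := hp'
    exact ⟨q, (surjective_baseChange_residueField_iff g q).1
      ((hL.isFramed_mapTo_iff_bijective fL _).1 ((isFramed_mapTo_mapTo_iff f L q).2 hp)).2, rfl⟩

/-- A family all of whose fibres are framed is framed. -/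
theorem isFramed_of_forall (hchi : ∀ p : PrimeSpectrum R, (B.mapTo p.asIdeal.ResidueField).chi = 0)
    (hrig : B.IsRigidifiable)
    (h : ∀ p : PrimeSpectrum R, (B.mapTo p.asIdeal.ResidueField).IsFramed w) :
    B.IsFramed w := by
  obtain ⟨f⟩ := hrig.exists_functional
  have hB : B.IsAcyclic := isAcyclic_of_forall hchi fun p => (h p).1
  let g := wordCoord hB f w
  have hbij : ∀ p : PrimeSpectrum R, Function.Bijective (g.baseChange p.asIdeal.ResidueField) :=
    fun p => (hB.isFramed_mapTo_iff_bijective f _).1 (h p)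
  have hsurj : Function.Surjective g := by
    rw [← LinearMap.range_eq_top, ← Submodule.Quotient.subsingleton_iff,
      ← Module.support_eq_empty_iff (R := R), Set.eq_empty_iff_forall_notMem]
    exact fun p => (surjective_baseChange_residueField_iff g p).1 (hbij p).2
  have := hB.finite_W
  obtain ⟨s, hs⟩ := g.exists_rightInverse_of_surjective (LinearMap.range_eq_top.2 hsurj)
  let π : B.W →ₗ[R] LinearMap.ker g := (LinearMap.id - s.comp g).codRestrict _ fun v => by
    have h : g (s (g v)) = g v := LinearMap.congr_fun hs (g v)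
    simp [h]
  have hπ : π.comp (LinearMap.ker g).subtype = LinearMap.id :=
    LinearMap.ext fun m => Subtype.ext (by simp [π, LinearMap.mem_ker.1 m.2])
  have : Module.Finite R (LinearMap.ker g) :=
    Module.Finite.of_surjective π fun z => ⟨z, LinearMap.congr_fun hπ z⟩
  have hker : Subsingleton (LinearMap.ker g) := by
    rw [← Module.support_eq_empty_iff (R := R), Set.eq_empty_iff_forall_notMem]
    intro p
    rw [Module.mem_support_iff_nontrivial_residueField_tensorProduct,
      not_nontrivial_iff_subsingleton]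
    refine subsingleton_of_forall_eq 0 fun t => ?_
    have h0 : (LinearMap.ker g).subtype.baseChange p.asIdeal.ResidueField t = 0 := by
      refine (hbij p).1 ?_
      rw [map_zero, ← LinearMap.comp_apply, ← LinearMap.baseChange_comp,
        LinearMap.comp_ker_subtype, LinearMap.baseChange_zero, LinearMap.zero_apply]
    have h1 := congrArg (π.baseChange p.asIdeal.ResidueField) h0
    rwa [map_zero, ← LinearMap.comp_apply, ← LinearMap.baseChange_comp, hπ,
      LinearMap.baseChange_id] at h1
  refine ⟨hB, f, ?_, hsurj⟩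
  rw [← LinearMap.ker_eq_bot]
  exact Submodule.subsingleton_iff_eq_bot.1 hker

theorem IsAcyclic.wordW_append (hB : B.IsAcyclic) (l l' : List (Fin D.n × ℕ)) :
    hB.wordW (l ++ l') = (hB.wordW l).comp (hB.wordW l') := by
  induction l with
  | nil => rw [List.nil_append, IsAcyclic.wordW_nil, LinearMap.id_comp]
  | cons p l ih =>
    rw [List.cons_append, IsAcyclic.wordW_cons, IsAcyclic.wordW_cons, ih, LinearMap.comp_assoc]

section Exists

variable {K : Type u} [Field K] [Algebra k K] {C : D.Bundle K} (hC : C.IsAcyclic)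
  (f : C.EpsFunctional)

/-- The covector of a word. -/
noncomputable def wordDual (l : List (Fin D.n × ℕ)) : Module.Dual K C.W :=
  f.toLinearMap.comp
    ((Submodule.inclusion (fun _ h => h.1 : C.W ≤ C.L0.restrictScalars K)).comp (hC.wordW l))

theorem exists_wordDual_nil_ne_zero : ∃ z : C.W, wordDual hC f [] z ≠ 0 := by
  obtain ⟨m, hm⟩ := f.surjective 1
  refine ⟨hC.projW m, fun h2 => ?_⟩
  have h1 : f.toLinearMap m = f.toLinearMap ⟨(hC.projW m : C.M), (hC.projW m).2.1⟩ +
      f.toLinearMap ⟨D.xR K • (hC.shiftL0 m : C.M), C.L0.smul_mem _ (hC.shiftL0 m).2⟩ := by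
    rw [← map_add]
    exact congrArg f.toLinearMap (Subtype.ext (hC.split_eq m))
  rw [wordDual, LinearMap.comp_apply, LinearMap.comp_apply, IsAcyclic.wordW_nil] at h2
  change f.toLinearMap ⟨(hC.projW m : C.M), (hC.projW m).2.1⟩ = 0 at h2
  rw [hm, h2, f.map_smul0, εR_xR, zero_mul, add_zero] at h1
  exact one_ne_zero h1

omit hC in
theorem scalar_eq_zero_of_smul_eq_zero {a : D.R0 K} {z : C.L0} (hz : z ≠ 0) (h : a • z = 0) : a = 0 := by
  have := D.isDomain0 K
  obtain ⟨s, hs⟩ := (inferInstance : Module.Projective (D.R0 K) C.L0).out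
  have hne : s z ≠ 0 := fun h0 => hz (by rw [← hs z, h0, map_zero])
  have h' : a • s z = 0 := by rw [← map_smul, h, map_zero]
  obtain ⟨i, hi⟩ := Finsupp.ne_iff.1 hne
  have := DFunLike.congr_fun h' i
  rw [Finsupp.smul_apply, smul_eq_mul, Finsupp.zero_apply, mul_eq_zero] at this
  exact this.resolve_right hi

/-- The covectors of all words have no common zero. -/
theorem eq_zero_of_wordDual_eq_zero {v : C.W} (hv : ∀ l, wordDual hC f l v = 0) : v = 0 := by
  classical
  by_contra hv0
  let Z : Submodule K C.W := ⨅ l, LinearMap.ker (wordDual hC f l)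
  have hZ : ∀ {z : C.W}, z ∈ Z ↔ ∀ l, wordDual hC f l z = 0 := fun {z} => by
    simp [Z, Submodule.mem_iInf]
  have hop : ∀ p, ∀ z ∈ Z, hC.opW p z ∈ Z := fun p z hz => hZ.2 fun l => by
    have h := hZ.1 hz (l ++ [p])
    rw [wordDual, LinearMap.comp_apply, LinearMap.comp_apply, hC.wordW_append,
      IsAcyclic.wordW_cons, IsAcyclic.wordW_nil, LinearMap.comp_id, LinearMap.comp_apply] at h
    exact h
  let Q : Submodule K (C.L0.restrictScalars K) := ⨅ d, Z.comap (hC.coeffW d)
  have hQ : ∀ {m}, m ∈ Q ↔ ∀ d, hC.coeffW d m ∈ Z := fun {m} => by simp [Q, Submodule.mem_iInf]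
  have hQx : ∀ m ∈ Q, ∀ j : ℕ,
      (⟨D.xR K ^ j • (m : C.M), C.L0.smul_mem _ m.2⟩ : C.L0.restrictScalars K) ∈ Q := by
    intro m hm j
    induction j with
    | zero => simpa using hm
    | succ j ih =>
      let m' : C.L0.restrictScalars K := ⟨D.xR K ^ j • (m : C.M), C.L0.smul_mem _ m.2⟩
      have heq : D.xR K ^ (j + 1) • (m : C.M) = ((0 : C.W) : C.M) + D.xR K • (m' : C.M) := by
        rw [Submodule.coe_zero, zero_add, pow_succ', mul_smul]
      refine hQ.2 fun d => ?_
      cases d with
      | zero =>
        rw [IsAcyclic.coeffW_zero, hC.projW_eq m'.2 heq]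
        exact Z.zero_mem
      | succ d =>
        rw [IsAcyclic.coeffW_succ, LinearMap.comp_apply, hC.shiftL0_eq (a := m') heq]
        exact hQ.1 ih d
  have hQb : ∀ z ∈ Z, ∀ i, (⟨b0R (R := K) i • (z : C.M), C.L0.smul_mem _ z.2.1⟩ :
      C.L0.restrictScalars K) ∈ Q := fun z hz i => hQ.2 fun d => by
    rw [← hC.opW_apply (i, d) z]
    exact hop _ z hz
  have hdim : D.n ≤ Module.finrank K Z := by
    by_contra hlt
    let Δ := Finset.univ.sup D.deg0 + 1
    let N := D.n * Δ + 1
    let vec : Fin D.n × Fin N → Q := fun p =>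
      ⟨⟨D.xR K ^ (p.2 : ℕ) • b0R (R := K) p.1 • (v : C.M), C.L0.smul_mem _ (C.L0.smul_mem _ v.2.1)⟩,
        hQx _ (hQb v (hZ.2 hv) p.1) p.2⟩
    let μ : (Fin D.n × Fin N → K) →ₗ[K] Q := Fintype.linearCombination K vec
    let Ψ : Q →ₗ[K] (Fin (N + Δ) → Z) := LinearMap.pi fun e =>
      ((hC.coeffW e).comp Q.subtype).codRestrict Z fun m => hQ.1 m.2 e
    have hμ : ∀ c, ((μ c : C.L0.restrictScalars K) : C.M) =
        ∑ p, c p • D.xR K ^ (p.2 : ℕ) • b0R (R := K) p.1 • (v : C.M) := fun c => by
      simp only [μ, Fintype.linearCombination_apply, Submodule.coe_sum, SetLike.val_smul, vec]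
    have hinj : Function.Injective (Ψ.comp μ) := by
      rw [injective_iff_map_eq_zero]
      intro c hc
      have hmem : D.yR K ^ (N + Δ) • ((μ c : C.L0.restrictScalars K) : C.M) ∈ C.L1 := by
        rw [hμ, Finset.smul_sum]
        refine C.L1.sum_mem fun p _ => ?_
        rw [smul_comm]
        refine C.L1.smul_of_tower_mem _ ?_
        obtain ⟨t, ht⟩ := Nat.exists_eq_add_of_le (show (p.2 : ℕ) + (D.deg0 p.1 + 1) ≤ N + Δ from
          Nat.add_le_add p.2.2.le (Nat.succ_le_succ (Finset.le_sup (Finset.mem_univ p.1))))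
        rw [ht, show (p.2 : ℕ) + (D.deg0 p.1 + 1) + t = t + (D.deg0 p.1 + 1) + p.2 by omega,
          pow_add, mul_smul, C.yR_pow_smul_xR_pow_smul, pow_add, mul_smul]
        exact C.L1.smul_mem _ (yR_pow_smul_b0R_mem v.2.2 p.1)
      have h0 := hC.eq_sum_coeffW _ hmem
      rw [Finset.sum_eq_zero fun e he => by
        rw [show hC.coeffW e (μ c : C.L0.restrictScalars K) = 0 from
          congrArg Subtype.val (congr_fun hc ⟨e, Finset.mem_range.1 he⟩), Submodule.coe_zero,
          smul_zero]] at h0
      rw [hμ] at h0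
      have ha : (∑ p, c p • D.rBasis0 K ⟨p.1, (p.2 : ℕ)⟩) = 0 := by
        refine scalar_eq_zero_of_smul_eq_zero (z := (⟨v, v.2.1⟩ : C.L0))
          (fun h => hv0 (Subtype.ext (congrArg Subtype.val h :))) (Subtype.ext ?_)
        rw [SetLike.val_smul, Submodule.coe_zero, Finset.sum_smul]
        refine Eq.trans (Finset.sum_congr rfl fun p _ => ?_) h0
        rw [smul_assoc, rBasis0_apply, mul_smul]
      exact funext (Fintype.linearIndependent_iff.1 ((D.rBasis0 K).linearIndependent.comp
        (fun p : Fin D.n × Fin N => (⟨p.1, (p.2 : ℕ)⟩ : Σ _ : Fin D.n, ℕ))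
        (fun a b h => by
          simp only [Sigma.mk.inj_iff, heq_eq_eq] at h
          exact Prod.ext h.1 (Fin.ext h.2))) c ha)
    have := hC.finite_W
    have h := LinearMap.finrank_le_finrank_of_injective hinj
    rw [Module.finrank_pi, Module.finrank_pi_fintype, Finset.sum_const, Finset.card_univ,
      Fintype.card_fin, Fintype.card_prod, Fintype.card_fin, Fintype.card_fin, smul_eq_mul] at h
    have hz1 : Module.finrank K Z + 1 ≤ D.n := by omega
    have h2 : (N + Δ) * (Module.finrank K Z + 1) ≤ (N + Δ) * D.n := Nat.mul_le_mul_left _ hz1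
    have hN : N = D.n * Δ + 1 := rfl
    nlinarith
  have := hC.finite_W
  have hZtop : Z = ⊤ := Submodule.eq_top_of_finrank_eq
    (le_antisymm (Submodule.finrank_le Z) (hC.finrank_W.trans_le hdim))
  obtain ⟨z, hz⟩ := exists_wordDual_nil_ne_zero hC f
  exact hz (hZ.1 (hZtop ▸ Submodule.mem_top : z ∈ Z) [])

include hC f in
theorem exists_bijective_wordCoord :
    ∃ w : Fin D.n → List (Fin D.n × ℕ), w D.i₀ = [] ∧ Function.Bijective (wordCoord hC f w) := by
  classical
  have := hC.finite_W
  let c := wordDual hC f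
  have hc0 : c [] ≠ 0 := fun h0 => by
    obtain ⟨z, hz⟩ := exists_wordDual_nil_ne_zero hC f
    exact hz (LinearMap.congr_fun h0 z)
  obtain ⟨b, hbc, hcb, hspan, hli⟩ := exists_linearIndepOn_id_extension
    (LinearIndepOn.singleton (R := K) (v := id) hc0)
    (Set.singleton_subset_iff.2 ⟨[], rfl⟩ : {c []} ⊆ Set.range c)
  have hli' : LinearIndependent K ((↑) : b → Module.Dual K C.W) := hli
  have := hli'.finite
  let := Fintype.ofFinite b
  let ev : C.W →ₗ[K] (b → K) := LinearMap.pi fun φ => (φ : Module.Dual K C.W)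
  have hev : Function.Injective ev := by
    rw [injective_iff_map_eq_zero]
    intro v hv
    refine eq_zero_of_wordDual_eq_zero hC f fun l => ?_
    refine Submodule.span_induction (p := fun φ _ => φ v = 0) ?_ ?_ ?_ ?_ (hspan ⟨l, rfl⟩)
    · exact fun φ hφ => congr_fun hv ⟨φ, hφ⟩
    · rfl
    · intro φ ψ _ _ hφ hψ; rw [LinearMap.add_apply, hφ, hψ, add_zero]
    · intro a φ _ hφ; rw [LinearMap.smul_apply, hφ, smul_zero]
  have hcard : Fintype.card b = D.n := by
    refine le_antisymm ?_ ?_
    · exact hli'.fintype_card_le_finrank.trans_eq (Subspace.dual_finrank_eq.trans hC.finrank_W)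
    · calc D.n = Module.finrank K C.W := hC.finrank_W.symm
        _ ≤ Module.finrank K (b → K) := LinearMap.finrank_le_finrank_of_injective hev
        _ = _ := Module.finrank_pi K
  let e0 : Fin D.n ≃ b := (Fintype.equivFinOfCardEq hcard).symm
  let e : Fin D.n ≃ b := (Equiv.swap D.i₀ (e0.symm ⟨c [], hcb rfl⟩)).trans e0
  have he : (e D.i₀ : Module.Dual K C.W) = c [] := by
    simp [e, Equiv.swap_apply_left]
  choose l hl using fun j => hbc (e j).2
  refine ⟨fun j => if j = D.i₀ then [] else l j, if_pos rfl, ?_⟩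
  have hw : ∀ v j, wordCoord hC f (fun j => if j = D.i₀ then [] else l j) v j =
      (e j : Module.Dual K C.W) v := by
    intro v j
    change wordDual hC f (if j = D.i₀ then [] else l j) v = _
    split_ifs with h
    · rw [h, he]
    · exact LinearMap.congr_fun (hl j) v
  have hinj : Function.Injective (wordCoord hC f fun j => if j = D.i₀ then [] else l j) := by
    intro v v' h
    refine hev (funext fun φ => ?_)
    obtain ⟨j, rfl⟩ := e.surjective φ
    change (e j : Module.Dual K C.W) v = (e j : Module.Dual K C.W) v'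
    rw [← hw, ← hw, h]
  exact ⟨hinj, (LinearMap.injective_iff_surjective_of_finrank_eq_finrank
    (by rw [hC.finrank_W, Module.finrank_pi, Fintype.card_fin])).1 hinj⟩

end Exists

/-- Over a field every acyclic rigidifiable bundle admits a frame. -/
theorem exists_isFramed {K : Type u} [Field K] [Algebra k K] {C : D.Bundle K} (hC : C.IsAcyclic)
    (hrig : C.IsRigidifiable) :
    ∃ w : Fin D.n → List (Fin D.n × ℕ), w D.i₀ = [] ∧ C.IsFramed w := by
  obtain ⟨f⟩ := hrig.exists_functional
  obtain ⟨w, hw, hbij⟩ := exists_bijective_wordCoord hC f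
  exact ⟨w, hw, hC, f, hbij⟩

end Bundle

end ChartData

end FermatLib.AV
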