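import Fermat.Agent.AV.Jac.Chart.FunctionalLemmas
import Fermat.Agent.AV.Jac.Core.AcyclicFamily

/-!
Functionals at the marked point and their covectors under change of coefficients.
-/

set_option autoImplicit false

universe u

open scoped TensorProduct

namespace FermatLib.AV

namespace ChartData

variable {k : Type u} [Field k] {D : ChartData k} {R : Type u} [CommRing R] [Algebra k R]
  {w : Fin D.n → List (Fin D.n × ℕ)}

namespace Bundle

variable {B B' : D.Bundle R}

/-- A rigidifiable bundle has a functional at the marked point. -/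
theorem IsRigidifiable.exists_functional (h : B.IsRigidifiable) : Nonempty B.EpsFunctional := by
  obtain ⟨e⟩ := h
  let f : B.L0.restrictScalars R →ₗ[R] R :=
    { toFun := fun m => e (Submodule.Quotient.mk ⟨(m : B.M), m.2⟩)
      map_add' := fun a b => by
        rw [← map_add e, ← Submodule.Quotient.mk_add]
        rfl
      map_smul' := fun r m => by
        rw [RingHom.id_apply, ← map_smul e, ← Submodule.Quotient.mk_smul]
        rfl }
  refine ⟨⟨f, fun a m => ?_, fun r => ?_⟩⟩
  · obtain ⟨m, hm⟩ := m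
    have h : ∀ z : B.L0, (Submodule.Quotient.mk (a • z) : B.L0 ⧸ B.epsSubmodule) =
        D.εR R a • Submodule.Quotient.mk z := fun z => by
      rw [← Submodule.Quotient.mk_smul, Submodule.Quotient.eq,
        ← IsScalarTower.algebraMap_smul (D.R0 R) (D.εR R a) z]
      have hker : a - algebraMap R (D.R0 R) (D.εR R a) ∈ RingHom.ker (D.εR R) := by
        rw [RingHom.mem_ker, map_sub, AlgHom.commutes, Algebra.algebraMap_self, RingHom.id_apply,
          sub_self]
      have hmem : (a - algebraMap R (D.R0 R) (D.εR R a)) • z ∈ B.epsSubmodule :=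
        Submodule.smul_mem_smul hker trivial
      convert! hmem using 1
      exact (sub_smul a (algebraMap R (D.R0 R) (D.εR R a)) z).symm
    change e (Submodule.Quotient.mk (a • (⟨m, hm⟩ : B.L0))) =
      D.εR R a * e (Submodule.Quotient.mk ⟨m, hm⟩)
    rw [h, map_smul, smul_eq_mul]
  · obtain ⟨z, hz⟩ := e.surjective r
    obtain ⟨⟨m, hm⟩, rfl⟩ := Submodule.Quotient.mk_surjective _ z
    exact ⟨⟨m, hm⟩, hz⟩

/-- Isomorphic bundles are framed together. -/
theorem Isom.isFramed (e : B.Isom B') (h : B.IsFramed w) : B'.IsFramed w := by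
  obtain ⟨e⟩ := e
  obtain ⟨hB, f, hbij⟩ := h
  have hB' : B'.IsAcyclic := Isom.isAcyclic ⟨e⟩ hB
  refine ⟨hB', f.transport e, ?_⟩
  let eW : B.W → B'.W := fun v => ⟨e.toEquiv v, e.mem_W.2 v.2⟩
  have heW : Function.Bijective eW := by
    refine ⟨fun a b h => Subtype.ext (e.toEquiv.injective (congrArg Subtype.val h)), fun z =>
      ⟨⟨e.toEquiv.symm z, e.mem_W.1 (by rw [LinearEquiv.apply_symm_apply]; exact z.2)⟩,
        Subtype.ext (e.toEquiv.apply_symm_apply _)⟩⟩
  have h : (wordCoord hB' (f.transport e) w : B'.W → Fin D.n → R) ∘ eW = wordCoord hB f w :=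
    funext fun v => e.wordCoord_transport hB hB' f w v
  exact (Function.Bijective.of_comp_iff _ heW).1 (h ▸ hbij)

/-- A functional at the marked point changes coefficients. -/
theorem EpsFunctional.exists_mapTo (f : B.EpsFunctional) (S : Type u) [CommRing S] [Algebra k S]
    [Algebra R S] [IsScalarTower k R S] : ∃ f' : (B.mapTo S).EpsFunctional,
      ∀ (m : B.L0.restrictScalars R)
        (hm : B.mapHom (IsScalarTower.toAlgHom k R S) (m : B.M) ∈ (B.mapTo S).L0),
        f'.toLinearMap ⟨_, hm⟩ = algebraMap R S (f.toLinearMap m) := by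
  let φ := IsScalarTower.toAlgHom k R S
  obtain ⟨e, he⟩ := B.exists_tensorEquiv S
  obtain ⟨ρ, hρ⟩ := B.exists_retraction_L0
  obtain ⟨E, hE⟩ := B.exists_summand_equiv S _ ρ hρ e he _ (B.mapTo_L0_eq S)
  let δ : S ⊗[R] B.L0.restrictScalars R →ₗ[S] S :=
    ((Algebra.linearMap R S).comp f.toLinearMap).liftBaseChange S
  have hE1 : ∀ s m, (E (s ⊗ₜ m) : (B.mapTo S).M) = s • B.mapHom φ (m : B.M) := fun s m => by
    rw [hE, LinearMap.baseChange_tmul, ← he, ← map_smul, TensorProduct.smul_tmul', smul_eq_mul,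
      mul_one, Submodule.coe_subtype]
  have key : ∀ (a : D.R0 S) (t : S ⊗[R] B.L0.restrictScalars R),
      δ (E.symm ⟨a • (E t : (B.mapTo S).M), (B.mapTo S).L0.smul_mem a (E t).2⟩) =
        D.εR S a * δ t := by
    intro a t
    induction t using TensorProduct.induction_on generalizing a with
    | zero =>
      have h : (⟨a • (E (0 : S ⊗[R] B.L0.restrictScalars R) : (B.mapTo S).M),
          (B.mapTo S).L0.smul_mem a (E 0).2⟩ : (B.mapTo S).L0.restrictScalars S) = 0 :=
        Subtype.ext (by simp)
      rw [h, map_zero, map_zero, mul_zero]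
    | add t t' h h' =>
      have hs : (⟨a • (E (t + t') : (B.mapTo S).M), (B.mapTo S).L0.smul_mem a (E _).2⟩ :
            (B.mapTo S).L0.restrictScalars S) =
          ⟨a • (E t : (B.mapTo S).M), (B.mapTo S).L0.smul_mem a (E t).2⟩ +
            ⟨a • (E t' : (B.mapTo S).M), (B.mapTo S).L0.smul_mem a (E t').2⟩ :=
        Subtype.ext (by simp only [map_add, Submodule.coe_add, smul_add])
      rw [hs, map_add, map_add, h, h', map_add, mul_add]
    | tmul s m =>
      induction a using TensorProduct.induction_on with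
      | zero =>
        have h : (⟨(0 : D.R0 S) • (E (s ⊗ₜ[R] m) : (B.mapTo S).M),
            (B.mapTo S).L0.smul_mem 0 (E _).2⟩ : (B.mapTo S).L0.restrictScalars S) = 0 :=
          Subtype.ext (zero_smul _ _)
        rw [h, map_zero, map_zero, map_zero, zero_mul]
      | add a a' h h' =>
        have hs : (⟨(a + a') • (E (s ⊗ₜ[R] m) : (B.mapTo S).M),
              (B.mapTo S).L0.smul_mem _ (E _).2⟩ : (B.mapTo S).L0.restrictScalars S) =
            ⟨a • (E (s ⊗ₜ[R] m) : (B.mapTo S).M), (B.mapTo S).L0.smul_mem a (E _).2⟩ +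
              ⟨a' • (E (s ⊗ₜ[R] m) : (B.mapTo S).M), (B.mapTo S).L0.smul_mem a' (E _).2⟩ :=
          Subtype.ext (add_smul _ _ _)
        rw [hs, map_add, map_add, h, h', map_add, add_mul]
      | tmul t x =>
        have h : (⟨(t ⊗ₜ[k] x : D.R0 S) • (E (s ⊗ₜ[R] m) : (B.mapTo S).M),
              (B.mapTo S).L0.smul_mem _ (E _).2⟩ : (B.mapTo S).L0.restrictScalars S) =
            E ((t * s) ⊗ₜ[R] ⟨((1 : R) ⊗ₜ[k] x : D.R0 R) • (m : B.M), B.L0.smul_mem _ m.2⟩) := by
          refine Subtype.ext ?_
          change (t ⊗ₜ[k] x : D.R0 S) • (E (s ⊗ₜ[R] m) : (B.mapTo S).M) = _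
          rw [hE1, hE1, mapHom_smul0,
            show (t ⊗ₜ[k] x : D.R0 S) = t • D.map0 φ ((1 : R) ⊗ₜ[k] x) by
              simp [ChartData.map0, φ, TensorProduct.smul_tmul', IsScalarTower.coe_toAlgHom'],
            smul_assoc, smul_comm (D.map0 φ _) s, mul_smul]
        rw [h, LinearEquiv.symm_apply_apply]
        simp only [δ, LinearMap.liftBaseChange_tmul, LinearMap.comp_apply, Algebra.linearMap_apply,
          smul_eq_mul, f.map_smul0, map_mul, εR_tmul, one_mul,
          ← IsScalarTower.algebraMap_apply]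
        ring
  refine ⟨⟨δ.comp E.symm.toLinearMap, fun a m => ?_, fun s => ?_⟩, fun m hm => ?_⟩
  · obtain ⟨t, rfl⟩ := E.surjective m
    refine (key a t).trans ?_
    rw [LinearMap.comp_apply, LinearEquiv.coe_coe, LinearEquiv.symm_apply_apply]
  · obtain ⟨m, hm⟩ := f.surjective 1
    refine ⟨E (s ⊗ₜ m), ?_⟩
    rw [LinearMap.comp_apply, LinearEquiv.coe_coe, LinearEquiv.symm_apply_apply]
    simp [δ, hm]
  · have h : (⟨_, hm⟩ : (B.mapTo S).L0.restrictScalars S) = E (1 ⊗ₜ m) :=
      Subtype.ext (by rw [hE1, one_smul])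
    change δ (E.symm ⟨_, hm⟩) = _
    rw [h, LinearEquiv.symm_apply_apply]
    simp [δ]

/-- The covectors of the words commute with change of coefficients. -/
theorem exists_wordCoord_mapTo (hB : B.IsAcyclic) (f : B.EpsFunctional)
    (w : Fin D.n → List (Fin D.n × ℕ)) (S : Type u) [CommRing S] [Algebra k S] [Algebra R S]
    [IsScalarTower k R S] :
    ∃ (f' : (B.mapTo S).EpsFunctional) (E : S ⊗[R] B.W ≃ₗ[S] (B.mapTo S).W), ∀ t,
      wordCoord (hB.isAcyclic_mapTo S) f' w (E t) =
        TensorProduct.piScalarRight R S S (Fin D.n) ((wordCoord hB f w).baseChange S t) := by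
  obtain ⟨f', hf'⟩ := f.exists_mapTo S
  obtain ⟨E, hE⟩ := hB.exists_W_equiv S
  refine ⟨f', E, fun t => ?_⟩
  induction t using TensorProduct.induction_on with
  | zero => simp only [map_zero]
  | add a b ha hb => simp only [map_add, ha, hb]
  | tmul s v =>
    have h1 : wordCoord (hB.isAcyclic_mapTo S) f' w (E (1 ⊗ₜ v)) =
        fun j => algebraMap R S (wordCoord hB f w v j) := by
      funext j
      let g := B.mapHom (IsScalarTower.toAlgHom k R S)
      have hW : ∀ m ∈ B.W, g m ∈ (B.mapTo S).W := fun m hm => hB.mapHom_mem_W _ hm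
      have hv : E (1 ⊗ₜ v) = ⟨g v, hW _ v.2⟩ := Subtype.ext (hE v)
      have hw := hB.wordW_map (φ := IsScalarTower.toAlgHom k R S) (hB.isAcyclic_mapTo S) g
        (fun a m => mapHom_smul _ B a m) (fun m hm => Submodule.subset_span ⟨m, hm, rfl⟩) hW (w j) v
      change f'.toLinearMap _ = algebraMap R S (f.toLinearMap _)
      rw [hv, ← hf' _ (Submodule.subset_span ⟨_, (hB.wordW (w j) v).2.1, rfl⟩)]
      exact congrArg f'.toLinearMap (Subtype.ext hw)
    rw [show s ⊗ₜ[R] v = s • ((1 : S) ⊗ₜ[R] v) by
      rw [TensorProduct.smul_tmul', smul_eq_mul, mul_one], map_smul, map_smul, map_smul, map_smul,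
      h1, LinearMap.baseChange_tmul]
    congr 1
    funext j
    simp [Algebra.algebraMap_eq_smul_one]

/-- After change of coefficients, being framed is bijectivity of the covectors. -/
theorem IsAcyclic.isFramed_mapTo_iff_bijective (hB : B.IsAcyclic) (f : B.EpsFunctional)
    (S : Type u) [CommRing S] [Algebra k S] [Algebra R S] [IsScalarTower k R S] :
    (B.mapTo S).IsFramed w ↔ Function.Bijective ((wordCoord hB f w).baseChange S) := by
  obtain ⟨f', E, hE⟩ := exists_wordCoord_mapTo hB f w S
  have h : (wordCoord (hB.isAcyclic_mapTo S) f' w : (B.mapTo S).W → Fin D.n → S) ∘ E =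
      TensorProduct.piScalarRight R S S (Fin D.n) ∘ (wordCoord hB f w).baseChange S :=
    funext hE
  constructor
  · intro hF
    have hb := (hF.bijective (hB.isAcyclic_mapTo S) f').comp E.bijective
    rw [h] at hb
    exact (Function.Bijective.of_comp_iff' (LinearEquiv.bijective _) _).1 hb
  · intro hb
    refine ⟨hB.isAcyclic_mapTo S, f', (Function.Bijective.of_comp_iff _ E.bijective).1 ?_⟩
    rw [h]
    exact (LinearEquiv.bijective _).comp hb

/-- Over a field extension of the coefficients surjectivity of the covectors suffices. -/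
theorem IsAcyclic.isFramed_mapTo_of_surjective (hB : B.IsAcyclic) (f : B.EpsFunctional)
    (S : Type u) [Field S] [Algebra k S] [Algebra R S] [IsScalarTower k R S]
    (hs : Function.Surjective ((wordCoord hB f w).baseChange S)) : (B.mapTo S).IsFramed w := by
  obtain ⟨f', E, hE⟩ := exists_wordCoord_mapTo hB f w S
  have hB' := hB.isAcyclic_mapTo S
  have : Module.Finite S (B.mapTo S).W := hB'.finite_W
  have hsurj : Function.Surjective (wordCoord hB' f' w) := fun c => by
    obtain ⟨t, ht⟩ := hs ((TensorProduct.piScalarRight R S S (Fin D.n)).symm c)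
    exact ⟨E t, by rw [hE, ht, LinearEquiv.apply_symm_apply]⟩
  refine ⟨hB', f', ?_, hsurj⟩
  exact (LinearMap.injective_iff_surjective_of_finrank_eq_finrank
    (by rw [hB'.finrank_W, Module.finrank_pi, Fintype.card_fin])).2 hsurj

/-- Frames change coefficients. -/
theorem IsFramed.map (h : B.IsFramed w) {S : Type u} [CommRing S] [Algebra k S] (φ : R →ₐ[k] S) :
    (B.map φ).IsFramed w := by
  obtain ⟨hB, f, hf⟩ := h
  let : Algebra R S := φ.toRingHom.toAlgebra
  have : IsScalarTower k R S := IsScalarTower.of_algebraMap_eq fun a => (φ.commutes a).symm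
  have hφ : IsScalarTower.toAlgHom k R S = φ := AlgHom.ext fun _ => rfl
  rw [← hφ]
  exact (hB.isFramed_mapTo_iff_bijective f S).2
    ((LinearEquiv.ofBijective _ hf).baseChange R S _ _).bijective

end Bundle

end ChartData

end FermatLib.AV
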